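/-
S41 volunteer leaf (P3), framework (helper59).

Two-group "weak coset systems": a finite family `al i` of integer `2 × 2` matrices together with,
for every `g : G`, an index map `perm g` and factors `fac g i : G'` with
`al i * g = fac g i * al (perm g i)`, satisfying the cocycle identities.  Such a system defines
`op : Hom(G', A) → Hom(G, A)`, `(op φ) g = ∑ i, φ (fac g i)`.  Restriction, conjugation, transfer
and the Hecke operators `T_ℓ`, `U_q` of `S16/HeckeHom` are all of this form; products of systems
give composites of operators, and two systems whose families agree up to left multiplication by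
`G'` define the same operator.
-/
import Mathlib
import Fermat.Agent.S16.HeckeHom

set_option autoImplicit false

namespace Fermat.Agent.S41.Level

open scoped MatrixGroups
open Matrix Fermat.Agent.S16.HeckeHom

/-- A weak coset system from `G` to `G'`. -/
structure WCS (G G' : Subgroup SL(2, ℤ)) (I : Type) where
  /-- the representatives -/
  al : I → Matrix (Fin 2) (Fin 2) ℤ
  /-- the index map -/
  perm : G → I → I
  /-- the factors -/
  fac : G → I → G'
  spec : ∀ g i, al i * mat g = mat (fac g i) * al (perm g i)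
  perm_one : ∀ i, perm 1 i = i
  perm_mul : ∀ g h i, perm (g * h) i = perm h (perm g i)
  fac_mul : ∀ g h i, fac (g * h) i = fac g i * fac h (perm g i)

namespace WCS

variable {G G' G'' : Subgroup SL(2, ℤ)} {I J : Type}

section Basic

variable (C : WCS G G' I)

theorem perm_inv_perm (g : G) (i : I) : C.perm g⁻¹ (C.perm g i) = i := by
  rw [← C.perm_mul, mul_inv_cancel, C.perm_one]

theorem perm_perm_inv (g : G) (i : I) : C.perm g (C.perm g⁻¹ i) = i := by
  rw [← C.perm_mul, inv_mul_cancel, C.perm_one]

/-- `perm g` as an equivalence. -/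
def permEquiv (g : G) : I ≃ I where
  toFun := C.perm g
  invFun := C.perm g⁻¹
  left_inv := C.perm_inv_perm g
  right_inv := C.perm_perm_inv g

@[simp] theorem permEquiv_apply (g : G) (i : I) : C.permEquiv g i = C.perm g i := rfl

variable [Fintype I] {A : Type*} [AddCommGroup A]

/-- The operator `Hom(G', A) → Hom(G, A)` of a weak coset system. -/
def op (φ : Additive G' →+ A) : Additive G →+ A where
  toFun γ := ∑ i, φ (Additive.ofMul (C.fac (Additive.toMul γ) i))
  map_zero' := by
    have h : ∀ i, C.fac 1 i = 1 := by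
      intro i
      have := C.fac_mul 1 1 i
      rw [mul_one, C.perm_one] at this
      exact (mul_eq_left.mp this.symm)
    show ∑ i, φ (Additive.ofMul (C.fac (1 : G) i)) = 0
    simp only [h, ofMul_one, map_zero, Finset.sum_const_zero]
  map_add' γ δ := by
    show ∑ i, φ (Additive.ofMul (C.fac (Additive.toMul γ * Additive.toMul δ) i)) =
      ∑ i, φ (Additive.ofMul (C.fac (Additive.toMul γ) i)) +
        ∑ i, φ (Additive.ofMul (C.fac (Additive.toMul δ) i))
    simp only [C.fac_mul, ofMul_mul, map_add, Finset.sum_add_distrib]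
    congr 1
    exact (C.permEquiv (Additive.toMul γ)).sum_comp
      (fun i => φ (Additive.ofMul (C.fac (Additive.toMul δ) i)))

theorem op_apply (φ : Additive G' →+ A) (g : G) :
    C.op φ (Additive.ofMul g) = ∑ i, φ (Additive.ofMul (C.fac g i)) := rfl

theorem op_add (φ ψ : Additive G' →+ A) : C.op (φ + ψ) = C.op φ + C.op ψ := by
  refine AddMonoidHom.ext fun γ => ?_
  show ∑ i, (φ + ψ) _ = ∑ i, φ _ + ∑ i, ψ _
  simp only [AddMonoidHom.add_apply, Finset.sum_add_distrib]

theorem op_zero : C.op (0 : Additive G' →+ A) = 0 := by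
  refine AddMonoidHom.ext fun γ => ?_
  show ∑ i, (0 : Additive G' →+ A) _ = 0
  simp

/-- `op` as an additive map. -/
def opAdd : (Additive G' →+ A) →+ (Additive G →+ A) where
  toFun := C.op
  map_zero' := C.op_zero
  map_add' := C.op_add

@[simp] theorem opAdd_apply (φ : Additive G' →+ A) : C.opAdd φ = C.op φ := rfl

theorem op_neg (φ : Additive G' →+ A) : C.op (-φ) = -C.op φ := map_neg C.opAdd φ

theorem op_sub (φ ψ : Additive G' →+ A) : C.op (φ - ψ) = C.op φ - C.op ψ := map_sub C.opAdd φ ψ

theorem op_zsmul (n : ℤ) (φ : Additive G' →+ A) : C.op (n • φ) = n • C.op φ :=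
  map_zsmul C.opAdd n φ

theorem op_nsmul (n : ℕ) (φ : Additive G' →+ A) : C.op (n • φ) = n • C.op φ :=
  map_nsmul C.opAdd n φ

/-- Naturality in the coefficient group. -/
theorem op_comp_left {B : Type*} [AddCommGroup B] (f : A →+ B) (φ : Additive G' →+ A) :
    C.op (f.comp φ) = f.comp (C.op φ) := by
  refine AddMonoidHom.ext fun γ => ?_
  show ∑ i, f (φ _) = f (∑ i, φ _)
  rw [map_sum]

end Basic

end WCS

/-! ### Systems with unique decomposition -/

/-- Data of a family of representatives with existence and uniqueness of the decomposition. -/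
structure UData (G G' : Subgroup SL(2, ℤ)) (I : Type) where
  /-- the representatives -/
  al : I → Matrix (Fin 2) (Fin 2) ℤ
  det_ne : ∀ i, (al i).det ≠ 0
  ex : ∀ (g : G) (i : I), ∃ (i' : I) (g' : G'), al i * mat g = mat g' * al i'
  uniq : ∀ (i i' : I) (g' : G'), al i = mat g' * al i' → i = i'

namespace UData

variable {G G' : Subgroup SL(2, ℤ)} {I : Type} (D : UData G G' I)

/-- the index map -/
noncomputable def perm (g : G) (i : I) : I := (D.ex g i).choose

/-- the factor -/
noncomputable def fac (g : G) (i : I) : G' := (D.ex g i).choose_spec.choose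

theorem spec (g : G) (i : I) : D.al i * mat g = mat (D.fac g i) * D.al (D.perm g i) :=
  (D.ex g i).choose_spec.choose_spec

theorem eq_of_spec {g : G} {g' : G'} {i i' : I} (h : D.al i * mat g = mat g' * D.al i') :
    i' = D.perm g i ∧ g' = D.fac g i := by
  have h1 : mat (D.fac g i) * D.al (D.perm g i) = mat g' * D.al i' := by rw [← D.spec, h]
  have h2 : D.al (D.perm g i) = mat ((D.fac g i)⁻¹ * g') * D.al i' := by
    rw [mat_mul, Matrix.mul_assoc, ← h1, ← Matrix.mul_assoc, mat_inv_mul, Matrix.one_mul]
  have h3 : D.perm g i = i' := D.uniq _ _ _ h2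
  refine ⟨h3.symm, ?_⟩
  rw [h3] at h1
  exact (mat_injective (mul_right_cancel_of_det_ne_zero (D.det_ne i') h1)).symm

theorem perm_one (i : I) : D.perm 1 i = i := by
  have h : D.al i * mat (1 : G) = mat (1 : G') * D.al i := by
    rw [mat_one, mat_one, Matrix.mul_one, Matrix.one_mul]
  exact (D.eq_of_spec h).1.symm

theorem spec_mul (g h : G) (i : I) :
    D.al i * mat (g * h) =
      mat (D.fac g i * D.fac h (D.perm g i)) * D.al (D.perm h (D.perm g i)) := by
  rw [mat_mul, ← Matrix.mul_assoc, D.spec g i, Matrix.mul_assoc, D.spec h (D.perm g i),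
    ← Matrix.mul_assoc, ← mat_mul]

/-- The weak coset system of a unique-decomposition datum. -/
noncomputable def toWCS : WCS G G' I where
  al := D.al
  perm := D.perm
  fac := D.fac
  spec := D.spec
  perm_one := D.perm_one
  perm_mul g h i := (D.eq_of_spec (D.spec_mul g h i)).1.symm
  fac_mul g h i := (D.eq_of_spec (D.spec_mul g h i)).2.symm

@[simp] theorem toWCS_al : D.toWCS.al = D.al := rfl

end UData

/-- The datum of a coset system of `S16/HeckeHom`. -/
def _root_.Fermat.Agent.S16.HeckeHom.CosetSystem.toUData {G : Subgroup SL(2, ℤ)} {I : Type}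
    [Fintype I] [DecidableEq I] (C : CosetSystem G I) : UData G G I where
  al := C.al
  det_ne := C.det_ne
  ex := C.ex
  uniq := C.uniq

namespace WCS

variable {G G' G'' : Subgroup SL(2, ℤ)} {I J : Type}

/-- A weak coset system is *rigid* if its family has nonzero determinants and is pairwise
inequivalent under left multiplication by `G'`. -/
structure Rigid (C : WCS G G' I) : Prop where
  det_ne : ∀ i, (C.al i).det ≠ 0
  uniq : ∀ (i i' : I) (g' : G'), C.al i = mat g' * C.al i' → i = i'

theorem _root_.Fermat.Agent.S41.Level.UData.rigid (D : UData G G' I) : D.toWCS.Rigid :=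
  ⟨D.det_ne, D.uniq⟩

theorem Rigid.eq_of_spec {C : WCS G G' I} (hC : C.Rigid) {g : G} {g' : G'} {i i' : I}
    (h : C.al i * mat g = mat g' * C.al i') : i' = C.perm g i ∧ g' = C.fac g i := by
  have h1 : mat (C.fac g i) * C.al (C.perm g i) = mat g' * C.al i' := by rw [← C.spec, h]
  have h2 : C.al (C.perm g i) = mat ((C.fac g i)⁻¹ * g') * C.al i' := by
    rw [mat_mul, Matrix.mul_assoc, ← h1, ← Matrix.mul_assoc, mat_inv_mul, Matrix.one_mul]
  have h3 : C.perm g i = i' := hC.uniq _ _ _ h2
  refine ⟨h3.symm, ?_⟩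
  rw [h3] at h1
  exact (mat_injective (mul_right_cancel_of_det_ne_zero (hC.det_ne i') h1)).symm

/-- The operator of an `S16` coset system is its `heckeHom`. -/
theorem op_toUData {G : Subgroup SL(2, ℤ)} {I : Type} [Fintype I] [DecidableEq I]
    (C : CosetSystem G I) {A : Type*} [AddCommGroup A] (φ : Additive G →+ A) :
    C.toUData.toWCS.op φ = C.heckeHom φ := by
  refine AddMonoidHom.ext fun γ => ?_
  obtain ⟨g, rfl⟩ : ∃ g : G, Additive.ofMul g = γ := ⟨Additive.toMul γ, rfl⟩
  rw [op_apply, CosetSystem.heckeHom_apply]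
  refine Finset.sum_congr rfl fun i _ => ?_
  have h := C.toUData.spec g i
  have h' := (C.eq_of_spec h).2
  show φ (Additive.ofMul (C.toUData.fac g i)) = _
  rw [h']

/-! ### Composition -/

/-- The product of two weak coset systems: first `C₁ : G → G'`, then `C₂ : G' → G''`. -/
def comp (C₁ : WCS G G' I) (C₂ : WCS G' G'' J) : WCS G G'' (I × J) where
  al x := C₂.al x.2 * C₁.al x.1
  perm g x := (C₁.perm g x.1, C₂.perm (C₁.fac g x.1) x.2)
  fac g x := C₂.fac (C₁.fac g x.1) x.2
  spec g x := by
    rw [Matrix.mul_assoc, C₁.spec, ← Matrix.mul_assoc, C₂.spec, Matrix.mul_assoc]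
  perm_one x := by
    have h : C₁.fac 1 x.1 = 1 := by
      have := C₁.fac_mul 1 1 x.1
      rw [mul_one, C₁.perm_one] at this
      exact (mul_eq_left.mp this.symm)
    ext
    · exact C₁.perm_one x.1
    · show C₂.perm (C₁.fac 1 x.1) x.2 = x.2
      rw [h, C₂.perm_one]
  perm_mul g h x := by
    ext
    · exact C₁.perm_mul g h x.1
    · show C₂.perm (C₁.fac (g * h) x.1) x.2 =
        C₂.perm (C₁.fac h (C₁.perm g x.1)) (C₂.perm (C₁.fac g x.1) x.2)
      rw [C₁.fac_mul, C₂.perm_mul]
  fac_mul g h x := by
    show C₂.fac (C₁.fac (g * h) x.1) x.2 =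
      C₂.fac (C₁.fac g x.1) x.2 * C₂.fac (C₁.fac h (C₁.perm g x.1)) (C₂.perm (C₁.fac g x.1) x.2)
    rw [C₁.fac_mul, C₂.fac_mul]

@[simp] theorem comp_al (C₁ : WCS G G' I) (C₂ : WCS G' G'' J) (x : I × J) :
    (C₁.comp C₂).al x = C₂.al x.2 * C₁.al x.1 := rfl

theorem op_comp [Fintype I] [Fintype J] (C₁ : WCS G G' I) (C₂ : WCS G' G'' J)
    {A : Type*} [AddCommGroup A] (φ : Additive G'' →+ A) :
    (C₁.comp C₂).op φ = C₁.op (C₂.op φ) := by
  refine AddMonoidHom.ext fun γ => ?_
  obtain ⟨g, rfl⟩ : ∃ g : G, Additive.ofMul g = γ := ⟨Additive.toMul γ, rfl⟩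
  rw [op_apply, op_apply, Fintype.sum_prod_type]
  refine Finset.sum_congr rfl fun i _ => ?_
  rw [op_apply]
  rfl

/-! ### One-element systems: inclusion and conjugation -/

/-- The one-element system of a matrix `B` with `B g = f(g) B`. -/
def single (B : Matrix (Fin 2) (Fin 2) ℤ) (f : G →* G')
    (hf : ∀ g, B * mat g = mat (f g) * B) : WCS G G' Unit where
  al _ := B
  perm _ _ := ()
  fac g _ := f g
  spec g _ := hf g
  perm_one _ := rfl
  perm_mul _ _ _ := rfl
  fac_mul g h _ := map_mul f g h

theorem op_single (B : Matrix (Fin 2) (Fin 2) ℤ) (f : G →* G')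
    (hf : ∀ g, B * mat g = mat (f g) * B) {A : Type*} [AddCommGroup A] (φ : Additive G' →+ A) :
    (single B f hf).op φ = φ.comp (MonoidHom.toAdditive f) := by
  refine AddMonoidHom.ext fun γ => ?_
  obtain ⟨g, rfl⟩ : ∃ g : G, Additive.ofMul g = γ := ⟨Additive.toMul γ, rfl⟩
  rw [op_apply]
  simp [single]

/-- The inclusion system of `G ≤ G'`: its operator is restriction. -/
def incl (h : G ≤ G') : WCS G G' Unit :=
  single 1 (Subgroup.inclusion h) (fun g => by rw [Matrix.one_mul, Matrix.mul_one]; rfl)

theorem op_incl (h : G ≤ G') {A : Type*} [AddCommGroup A] (φ : Additive G' →+ A) :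
    (incl h).op φ = φ.comp (MonoidHom.toAdditive (Subgroup.inclusion h)) :=
  op_single _ _ _ φ

/-! ### Comparison of systems -/

/-- Two systems whose indices, index maps and factors are conjugate by elements `h i : G'`
define the same operator. -/
theorem op_eq_of_conj [Fintype I] [Fintype J] (C : WCS G G' I) (D : WCS G G' J)
    (σ : I ≃ J) (h : I → G')
    (hfac : ∀ g i, C.fac g i = h i * D.fac g (σ i) * (h (C.perm g i))⁻¹)
    {A : Type*} [AddCommGroup A] (φ : Additive G' →+ A) : C.op φ = D.op φ := by
  refine AddMonoidHom.ext fun γ => ?_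
  obtain ⟨g, rfl⟩ : ∃ g : G, Additive.ofMul g = γ := ⟨Additive.toMul γ, rfl⟩
  rw [op_apply, op_apply]
  have h1 : ∀ i, φ (Additive.ofMul (C.fac g i)) =
      φ (Additive.ofMul (D.fac g (σ i))) +
        (φ (Additive.ofMul (h i)) - φ (Additive.ofMul (h (C.perm g i)))) := by
    intro i
    rw [hfac g i, ofMul_mul, ofMul_mul, map_add, map_add, ofMul_inv, map_neg]
    abel
  simp only [h1, Finset.sum_add_distrib, Finset.sum_sub_distrib]
  have h2 : ∑ i, φ (Additive.ofMul (h (C.perm g i))) = ∑ i, φ (Additive.ofMul (h i)) :=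
    (C.permEquiv g).sum_comp (fun i => φ (Additive.ofMul (h i)))
  rw [h2, sub_self, add_zero]
  exact σ.sum_comp (fun j => φ (Additive.ofMul (D.fac g j)))

/-- Comparison with a rigid system along an equivalence of index sets. -/
theorem op_eq_of_equiv [Fintype I] [Fintype J] (C : WCS G G' I) (D : WCS G G' J) (hD : D.Rigid)
    (σ : I ≃ J) (h : I → G') (hal : ∀ i, C.al i = mat (h i) * D.al (σ i))
    {A : Type*} [AddCommGroup A] (φ : Additive G' →+ A) : C.op φ = D.op φ := by
  have key : ∀ g i, σ (C.perm g i) = D.perm g (σ i) ∧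
      (h i)⁻¹ * C.fac g i * h (C.perm g i) = D.fac g (σ i) := by
    intro g i
    have h1 : D.al (σ i) * mat g =
        mat ((h i)⁻¹ * C.fac g i * h (C.perm g i)) * D.al (σ (C.perm g i)) := by
      have h2 := C.spec g i
      rw [hal i, hal (C.perm g i)] at h2
      calc D.al (σ i) * mat g
          = mat (h i)⁻¹ * (mat (h i) * D.al (σ i) * mat g) := by
            rw [← Matrix.mul_assoc, ← Matrix.mul_assoc, mat_inv_mul, Matrix.one_mul]
        _ = mat (h i)⁻¹ * (mat (C.fac g i) * (mat (h (C.perm g i)) * D.al (σ (C.perm g i)))) := by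
            rw [h2]
        _ = _ := by
            rw [mat_mul, mat_mul]; simp only [Matrix.mul_assoc]
    exact hD.eq_of_spec h1
  refine op_eq_of_conj C D σ h (fun g i => ?_) φ
  rw [← (key g i).2]
  group

/-- Comparison with a rigid system when only the existence of decompositions is known. -/
theorem op_eq_of_forall_exists [Fintype I] [Fintype J] (C : WCS G G' I) (D : WCS G G' J)
    (hC : C.Rigid) (hD : D.Rigid) (hcard : Fintype.card I = Fintype.card J)
    (hex : ∀ i, ∃ (j : J) (g' : G'), C.al i = mat g' * D.al j)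
    {A : Type*} [AddCommGroup A] (φ : Additive G' →+ A) : C.op φ = D.op φ := by
  choose s h hs using hex
  have hinj : Function.Injective s := by
    intro i i' hii
    have h1 := hs i
    have h2 := hs i'
    rw [hii] at h1
    apply hC.uniq i i' (h i * (h i')⁻¹)
    rw [h1, h2, mat_mul, Matrix.mul_assoc, ← Matrix.mul_assoc (mat (h i')⁻¹), mat_inv_mul,
      Matrix.one_mul]
  have hbij : Function.Bijective s :=
    (Fintype.bijective_iff_injective_and_card s).mpr ⟨hinj, hcard⟩
  exact op_eq_of_equiv C D hD (Equiv.ofBijective s hbij) h (fun i => hs i) φ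

/-- A system all of whose representatives are `G'`-multiples of one scalar matrix acts as
multiplication by the number of representatives (here `G ≤ G'`). -/
theorem op_eq_card_smul [Fintype I] (C : WCS G G' I) (hle : G ≤ G') (z : ℤ) (hz : z ≠ 0)
    (h : I → G') (hal : ∀ i, C.al i = mat (h i) * (z • (1 : Matrix (Fin 2) (Fin 2) ℤ)))
    {A : Type*} [AddCommGroup A] (φ : Additive G' →+ A) :
    C.op φ = Fintype.card I • φ.comp (MonoidHom.toAdditive (Subgroup.inclusion hle)) := by
  have hfac : ∀ g i, C.fac g i = h i * Subgroup.inclusion hle g * (h (C.perm g i))⁻¹ := by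
    intro g i
    have h2 := C.spec g i
    rw [hal i, hal (C.perm g i)] at h2
    have h3 : (mat (h i) * mat g) * (z • (1 : Matrix (Fin 2) (Fin 2) ℤ)) =
        (mat (C.fac g i) * mat (h (C.perm g i))) * (z • (1 : Matrix (Fin 2) (Fin 2) ℤ)) := by
      rw [Matrix.mul_assoc, Matrix.mul_assoc] at *
      rw [← h2]
      simp only [Matrix.mul_smul, Matrix.smul_mul, Matrix.mul_one, Matrix.one_mul]
    have hdet : (z • (1 : Matrix (Fin 2) (Fin 2) ℤ)).det ≠ 0 := by
      rw [Matrix.det_smul, Matrix.det_one, mul_one]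
      exact pow_ne_zero _ hz
    have h4 := mul_right_cancel_of_det_ne_zero hdet h3
    have h5 : mat (h i * Subgroup.inclusion hle g) = mat (C.fac g i * h (C.perm g i)) := by
      rw [mat_mul, mat_mul, ← h4]; rfl
    have h6 := mat_injective h5
    rw [h6]; group
  refine AddMonoidHom.ext fun γ => ?_
  obtain ⟨g, rfl⟩ : ∃ g : G, Additive.ofMul g = γ := ⟨Additive.toMul γ, rfl⟩
  rw [op_apply]
  have h1 : ∀ i, φ (Additive.ofMul (C.fac g i)) =
      φ (Additive.ofMul (Subgroup.inclusion hle g)) +
        (φ (Additive.ofMul (h i)) - φ (Additive.ofMul (h (C.perm g i)))) := by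
    intro i
    rw [hfac g i, ofMul_mul, ofMul_mul, map_add, map_add, ofMul_inv, map_neg]
    abel
  simp only [h1, Finset.sum_add_distrib, Finset.sum_sub_distrib]
  have h2 : ∑ i, φ (Additive.ofMul (h (C.perm g i))) = ∑ i, φ (Additive.ofMul (h i)) :=
    (C.permEquiv g).sum_comp (fun i => φ (Additive.ofMul (h i)))
  rw [h2, sub_self, add_zero]
  simp [Finset.sum_const, Finset.card_univ]

end WCS

namespace WCS

variable {G G' : Subgroup SL(2, ℤ)} {I J : Type}

/-! ### Disjoint unions -/

/-- The disjoint union of two systems: its operator is the sum. -/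
def sum (C : WCS G G' I) (D : WCS G G' J) : WCS G G' (I ⊕ J) where
  al := Sum.elim C.al D.al
  perm g := Sum.map (C.perm g) (D.perm g)
  fac g := Sum.elim (C.fac g) (D.fac g)
  spec g x := by
    cases x with
    | inl i => exact C.spec g i
    | inr j => exact D.spec g j
  perm_one x := by
    cases x with
    | inl i => simp [C.perm_one]
    | inr j => simp [D.perm_one]
  perm_mul g h x := by
    cases x with
    | inl i => simp [C.perm_mul]
    | inr j => simp [D.perm_mul]
  fac_mul g h x := by
    cases x with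
    | inl i => simp [C.fac_mul]
    | inr j => simp [D.fac_mul]

theorem op_sum [Fintype I] [Fintype J] (C : WCS G G' I) (D : WCS G G' J)
    {A : Type*} [AddCommGroup A] (φ : Additive G' →+ A) :
    (C.sum D).op φ = C.op φ + D.op φ := by
  refine AddMonoidHom.ext fun γ => ?_
  obtain ⟨g, rfl⟩ : ∃ g : G, Additive.ofMul g = γ := ⟨Additive.toMul γ, rfl⟩
  rw [AddMonoidHom.add_apply, op_apply, op_apply, op_apply, Fintype.sum_sum_type]
  rfl

/-- The union of two rigid systems whose families are mutually inequivalent is rigid. -/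
theorem Rigid.sum {C : WCS G G' I} {D : WCS G G' J} (hC : C.Rigid) (hD : D.Rigid)
    (hCD : ∀ (i : I) (j : J) (g' : G'), C.al i ≠ mat g' * D.al j) : (C.sum D).Rigid := by
  refine ⟨fun x => ?_, fun x y g' hxy => ?_⟩
  · cases x with
    | inl i => exact hC.det_ne i
    | inr j => exact hD.det_ne j
  · cases x with
    | inl i =>
      cases y with
      | inl i' => rw [hC.uniq i i' g' hxy]
      | inr j => exact absurd hxy (hCD i j g')
    | inr j =>
      cases y with
      | inl i =>
        exfalso
        refine hCD i j g'⁻¹ ?_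
        have h1 : D.al j = mat g' * C.al i := hxy
        rw [h1, ← Matrix.mul_assoc, mat_inv_mul, Matrix.one_mul]
      | inr j' => rw [hD.uniq j j' g' hxy]

end WCS

end Fermat.Agent.S41.Level
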