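/-
S41 volunteer leaf (P3), parabolic classes (helper59).

The operator of a weak coset system (nonzero determinants) maps parabolic homomorphisms to
parabolic homomorphisms, for torsion-free coefficient groups.
-/
import Mathlib
import Fermat.Agent.S41.Level.CosetSys

set_option autoImplicit false

namespace Fermat.Agent.S41.Level

open scoped MatrixGroups
open Matrix Fermat.Agent.S16.HeckeHom ModularCurve.Period

/-- Trace of a `2 × 2` integer matrix is invariant under conjugation by a matrix of nonzero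
determinant: `a * x = y * a → tr x = tr y`. -/
theorem trace_eq_of_conj {a x y : Matrix (Fin 2) (Fin 2) ℤ} (ha : a.det ≠ 0)
    (h : a * x = y * a) : x.trace = y.trace := by
  have h1 : a.det • x = a.adjugate * (y * a) := by
    rw [← h, ← Matrix.mul_assoc, Matrix.adjugate_mul, Matrix.smul_mul, Matrix.one_mul]
  have h2 : (a.det • x).trace = (a.det • y).trace := by
    rw [h1, Matrix.trace_mul_comm, Matrix.mul_assoc, Matrix.mul_adjugate, Matrix.mul_smul,
      Matrix.mul_one]
  rw [Matrix.trace_smul, Matrix.trace_smul, smul_eq_mul, smul_eq_mul] at h2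
  exact mul_left_cancel₀ ha h2

/-- Powers of a matrix of determinant one and trace `± 2` have trace `± 2`. -/
theorem trace_pow_sq_eq_four {x : Matrix (Fin 2) (Fin 2) ℤ} (hdet : x.det = 1)
    (htr : x.trace ^ 2 = 4) (n : ℕ) : (x ^ n).trace ^ 2 = 4 := by
  -- `x ^ (n+2) = tr x • x ^ (n+1) - x ^ n`
  have hCH : ∀ m : ℕ, x ^ (m + 2) = x.trace • x ^ (m + 1) - x ^ m := by
    intro m
    have h2 : x ^ 2 = x.trace • x - 1 := by
      have hc := Matrix.aeval_self_charpoly x
      rw [Matrix.charpoly_fin_two, hdet] at hc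
      simp only [map_add, map_sub, map_pow, Polynomial.aeval_X, map_mul, Polynomial.aeval_C,
        map_one, Algebra.algebraMap_eq_smul_one] at hc
      rw [eq_sub_iff_add_eq]
      have : x ^ 2 - (x.trace • (1 : Matrix (Fin 2) (Fin 2) ℤ)) * x + 1 = 0 := hc
      rw [Matrix.smul_mul, Matrix.one_mul] at this
      rw [← sub_eq_zero]
      rw [← this]; abel
    calc x ^ (m + 2) = x ^ m * x ^ 2 := by rw [pow_add]
      _ = x ^ m * (x.trace • x - 1) := by rw [h2]
      _ = x.trace • x ^ (m + 1) - x ^ m := by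
          rw [mul_sub, mul_one, Matrix.mul_smul, ← pow_succ]
  -- traces: `t_{m+2} = t t_{m+1} - t_m`, `t_0 = 2`, `t_1 = t`
  have key : ∀ m : ℕ, (x ^ m).trace ^ 2 = 4 ∧ (x ^ (m + 1)).trace ^ 2 = 4 ∧
      (x ^ (m + 1)).trace * 2 = x.trace * (x ^ m).trace := by
    intro m
    induction m with
    | zero =>
      refine ⟨?_, ?_, ?_⟩
      · simp
      · simpa using htr
      · simp [Matrix.trace_fin_two]
    | succ m ih =>
      obtain ⟨h0, h1, h2⟩ := ih
      have h3 : (x ^ (m + 2)).trace = x.trace * (x ^ (m + 1)).trace - (x ^ m).trace := by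
        rw [hCH, Matrix.trace_sub, Matrix.trace_smul, smul_eq_mul]
      refine ⟨h1, ?_, ?_⟩
      · show (x ^ (m + 2)).trace ^ 2 = 4
        rw [h3]
        nlinarith [h0, h1, h2, htr]
      · show (x ^ (m + 2)).trace * 2 = x.trace * (x ^ (m + 1)).trace
        rw [h3]
        nlinarith [h0, h1, h2, htr]
  exact (key n).1

theorem mat_pow {H : Subgroup SL(2, ℤ)} (g : H) (n : ℕ) : mat (g ^ n) = (mat g) ^ n := by
  induction n with
  | zero => simp [mat_one]
  | succ n ih => rw [pow_succ, mat_mul, ih, pow_succ]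

namespace WCS

variable {G G' : Subgroup SL(2, ℤ)} {I : Type} [Fintype I]

omit [Fintype I] in
theorem fac_pow_perm_fixed (C : WCS G G' I) (hdet : ∀ i, (C.al i).det ≠ 0) (g : G)
    (htr : (mat g).trace ^ 2 = 4) (n : ℕ) (i : I) (hfix : C.perm (g ^ n) i = i) :
    (mat (C.fac (g ^ n) i)).trace ^ 2 = 4 := by
  have h1 := C.spec (g ^ n) i
  rw [hfix] at h1
  have h2 := trace_eq_of_conj (hdet i) h1
  rw [← h2]
  rw [mat_pow]
  exact trace_pow_sq_eq_four (mat_det g) htr n

/-- The operator of a weak coset system preserves parabolic homomorphisms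
(torsion-free coefficients). -/
theorem op_isParabolicHom (C : WCS G G' I) (hdet : ∀ i, (C.al i).det ≠ 0)
    {A : Type*} [AddCommGroup A] [IsAddTorsionFree A]
    {φ : Additive G' →+ A} (hφ : IsParabolicHom G' φ) : IsParabolicHom G (C.op φ) := by
  classical
  intro g htr
  -- a power of `g` acts trivially on the index set
  let π : Equiv.Perm I := C.permEquiv g
  obtain ⟨n, hnpos, hn⟩ : ∃ n : ℕ, 0 < n ∧ π ^ n = 1 :=
    ⟨orderOf π, orderOf_pos π, pow_orderOf_eq_one π⟩
  have hperm : ∀ (m : ℕ) (i : I), C.perm (g ^ m) i = (π ^ m) i := by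
    intro m
    induction m with
    | zero => intro i; simp [C.perm_one]
    | succ m ih =>
      intro i
      rw [pow_succ, C.perm_mul, ih, pow_succ', Equiv.Perm.mul_apply]
      rfl
  have hfix : ∀ i, C.perm (g ^ n) i = i := by
    intro i; rw [hperm, hn]; rfl
  have h0 : C.op φ (Additive.ofMul (g ^ n)) = 0 := by
    rw [op_apply]
    refine Finset.sum_eq_zero fun i _ => ?_
    exact hφ _ (C.fac_pow_perm_fixed hdet g htr n i (hfix i))
  have h1 : C.op φ (Additive.ofMul (g ^ n)) = n • C.op φ (Additive.ofMul g) := by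
    rw [ofMul_pow, map_nsmul]
  rw [h1] at h0
  exact (smul_eq_zero_iff_right hnpos.ne').mp h0

end WCS

end Fermat.Agent.S41.Level
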