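/-
S41 volunteer leaf (P3), the Atkin-Lehner involution at `q` on `Hom(Γ₀(N q), A)` (helper59).

`q x - N z = 1`, `W = !![q x, 1; N q z, q]` (determinant `q`) normalises `Γ₀(N q)`;
`W ^ 2 = q • γ_W` with `γ_W ∈ Γ₀(N q)`, hence the operator `w` of the one-element system `{W}`
is an involution.
-/
import Mathlib
import Fermat.Agent.S41.Level.CosetSys

set_option autoImplicit false

namespace Fermat.Agent.S41.Level

open scoped MatrixGroups
open Matrix CongruenceSubgroup Fermat.Agent.S16.HeckeHom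

/-- An integer matrix conjugate (by a matrix of nonzero determinant) to a matrix of determinant one
and with lower left entry divisible by `N` comes from `Γ₀(N)`. -/
theorem exists_gamma0_of_conj (N : ℕ) {Wm X Y : Matrix (Fin 2) (Fin 2) ℤ} (hW : Wm.det ≠ 0)
    (h : Wm * X = Y * Wm) (hX : X.det = 1) (hY : (N : ℤ) ∣ Y 1 0) :
    ∃ g' : Gamma0 N, mat g' = Y := by
  have hdet : Y.det = 1 := by
    have h1 := congrArg Matrix.det h
    rw [Matrix.det_mul, Matrix.det_mul, hX, mul_one, mul_comm] at h1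
    exact (mul_left_cancel₀ hW (by rw [mul_one]; exact h1)).symm
  rw [Matrix.det_fin_two] at hdet
  refine ⟨mkGamma0 N (Y 0 0) (Y 0 1) (Y 1 0) (Y 1 1) hdet hY, ?_⟩
  rw [mat_mkGamma0]
  exact (Matrix.eta_fin_two Y).symm

theorem smul_one_eq_of (z : ℤ) :
    (z • (1 : Matrix (Fin 2) (Fin 2) ℤ)) = !![z, 0; 0, z] := by
  ext i j
  fin_cases i <;> fin_cases j <;> simp

/-- Bezout data for the Atkin-Lehner matrix at `q` of level `N q`. -/
structure ALData (N q : ℕ) where
  /-- `q x - N z = 1` -/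
  x : ℤ
  /-- `q x - N z = 1` -/
  z : ℤ
  hxz : (q : ℤ) * x - (N : ℤ) * z = 1
  hq : 0 < q

/-- Bezout data exist when `q` and `N` are coprime. -/
theorem ALData.nonempty {N q : ℕ} (hq : 0 < q) (h : Nat.Coprime q N) :
    Nonempty (ALData N q) := by
  have h1 := Int.gcd_eq_gcd_ab (q : ℤ) (N : ℤ)
  have h2 : Int.gcd (q : ℤ) (N : ℤ) = 1 := by
    rw [Int.gcd_natCast_natCast]; exact h
  rw [h2] at h1
  refine ⟨⟨Int.gcdA q N, - Int.gcdB q N, ?_, hq⟩⟩
  push_cast at h1
  linarith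

namespace ALData

variable {N q : ℕ} (d : ALData N q)

/-- The Atkin-Lehner matrix. -/
def W : Matrix (Fin 2) (Fin 2) ℤ := !![(q : ℤ) * d.x, 1; (N : ℤ) * q * d.z, (q : ℤ)]

theorem det_W : d.W.det = q := by
  rw [W, Matrix.det_fin_two_of]
  linear_combination (q : ℤ) * d.hxz

theorem det_W_ne : d.W.det ≠ 0 := by
  rw [det_W]; exact_mod_cast d.hq.ne'

/-- `W` normalises `Γ₀(N q)`. -/
theorem exists_conj (g : Gamma0 (N * q)) : ∃ g' : Gamma0 (N * q), d.W * mat g = mat g' * d.W := by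
  obtain ⟨c', hc'⟩ := dvd_mat_one_zero (N * q) g
  set a := mat g 0 0 with ha
  set b := mat g 0 1 with hb
  set c := mat g 1 0 with hc
  set e := mat g 1 1 with he
  have hg : mat g = !![a, b; c, e] := Matrix.eta_fin_two (mat g)
  have hdetg : a * e - b * c = 1 := mat_det' (N * q) g
  push_cast at hc'
  -- the candidate conjugate
  let Y : Matrix (Fin 2) (Fin 2) ℤ :=
    !![(q : ℤ) * d.x * a + c - (N : ℤ) * d.z * ((q : ℤ) * d.x * b + e),
       - d.x * a + (q : ℤ) * d.x ^ 2 * b + d.x * e - (N : ℤ) * c';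
       (q : ℤ) * ((N : ℤ) * d.z * a + c - (N : ℤ) * d.z * ((N : ℤ) * d.z * b + e)),
       - (N : ℤ) * d.z * a - c + (N : ℤ) * q * d.z * d.x * b + (q : ℤ) * d.x * e]
  have hYW : d.W * mat g = Y * d.W := by
    rw [hg, W]
    have hx := d.hxz
    ext i j
    fin_cases i <;> fin_cases j
    · simp only [Y, Matrix.mul_apply, Fin.sum_univ_two]
      simp
      rw [hc']
      linear_combination (-((q : ℤ) * d.x * a + (N : ℤ) * q * c')) * hx
    · simp only [Y, Matrix.mul_apply, Fin.sum_univ_two]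
      simp
      rw [hc']
      linear_combination (-((q : ℤ) * d.x * b + e)) * hx
    · simp only [Y, Matrix.mul_apply, Fin.sum_univ_two]
      simp
      rw [hc']
      linear_combination (-((N : ℤ) * q * d.z * a + (q : ℤ) * ((N : ℤ) * q * c'))) * hx
    · simp only [Y, Matrix.mul_apply, Fin.sum_univ_two]
      simp
      rw [hc']
      linear_combination (-((N : ℤ) * q * d.z * b + (q : ℤ) * e)) * hx
  have hY10 : ((N * q : ℕ) : ℤ) ∣ Y 1 0 := by
    refine ⟨d.z * a + (q : ℤ) * c' - d.z * ((N : ℤ) * d.z * b + e), ?_⟩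
    simp only [Y]
    simp
    rw [hc']
    ring
  obtain ⟨g', hg'⟩ := exists_gamma0_of_conj (N * q) d.det_W_ne hYW (mat_det g) hY10
  exact ⟨g', by rw [hg']; exact hYW⟩

/-- The one-element unique-decomposition datum `{W}`. -/
def alData : UData (Gamma0 (N * q)) (Gamma0 (N * q)) Unit where
  al _ := d.W
  det_ne _ := d.det_W_ne
  ex g _ := ⟨(), d.exists_conj g⟩
  uniq _ _ _ _ := rfl

/-- The Atkin-Lehner system. -/
noncomputable def alSys : WCS (Gamma0 (N * q)) (Gamma0 (N * q)) Unit := d.alData.toWCS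

theorem alSys_al (u : Unit) : d.alSys.al u = d.W := rfl

theorem alSys_rigid : d.alSys.Rigid := d.alData.rigid

/-- The conjugation `g ↦ W g W⁻¹` on `Γ₀(N q)`. -/
noncomputable def conjW (g : Gamma0 (N * q)) : Gamma0 (N * q) := d.alSys.fac g ()

theorem conjW_spec (g : Gamma0 (N * q)) : d.W * mat g = mat (d.conjW g) * d.W :=
  d.alSys.spec g ()

/-- `W ^ 2 = γ_W * q`. -/
def gammaW : Gamma0 (N * q) :=
  mkGamma0 (N * q) ((q : ℤ) * d.x ^ 2 + (N : ℤ) * d.z) (d.x + 1)
    ((N : ℤ) * q * d.z * (d.x + 1)) ((N : ℤ) * d.z + q)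
    (by linear_combination ((q : ℤ) * d.x - (N : ℤ) * d.z + 1) * d.hxz)
    ⟨d.z * (d.x + 1), by push_cast; ring⟩

theorem W_mul_W : d.W * d.W = mat d.gammaW * ((q : ℤ) • (1 : Matrix (Fin 2) (Fin 2) ℤ)) := by
  rw [gammaW, mat_mkGamma0, W, smul_one_eq_of]
  ext i j
  fin_cases i <;> fin_cases j <;>
    simp [Matrix.mul_apply, Fin.sum_univ_two] <;> ring

/-- The Atkin-Lehner operator is an involution. -/
theorem alSys_op_op {A : Type*} [AddCommGroup A] (φ : Additive (Gamma0 (N * q)) →+ A) :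
    d.alSys.op (d.alSys.op φ) = φ := by
  rw [← WCS.op_comp]
  rw [WCS.op_eq_card_smul (d.alSys.comp d.alSys) le_rfl (q : ℤ) (by exact_mod_cast d.hq.ne')
    (fun _ => d.gammaW) (fun _ => by rw [WCS.comp_al]; exact d.W_mul_W) φ]
  refine AddMonoidHom.ext fun γ => ?_
  obtain ⟨g, rfl⟩ : ∃ g : Gamma0 (N * q), Additive.ofMul g = γ := ⟨Additive.toMul γ, rfl⟩
  simp only [Fintype.card_prod, Fintype.card_unit, mul_one, one_smul, AddMonoidHom.comp_apply,
    MonoidHom.toAdditive_apply_apply, toMul_ofMul]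
  congr 2

/-- `conjW` is surjective. -/
theorem conjW_surjective (g' : Gamma0 (N * q)) : ∃ g₀ : Gamma0 (N * q), d.conjW g₀ = g' := by
  refine ⟨d.conjW (d.gammaW⁻¹ * g' * d.gammaW), ?_⟩
  apply mat_injective
  have hW2 := d.W_mul_W
  have h1 := d.conjW_spec (d.gammaW⁻¹ * g' * d.gammaW)
  have h2 := d.conjW_spec (d.conjW (d.gammaW⁻¹ * g' * d.gammaW))
  -- `W W g = conj (conj g) W W`
  have h3 : d.W * d.W * mat (d.gammaW⁻¹ * g' * d.gammaW) =
      mat (d.conjW (d.conjW (d.gammaW⁻¹ * g' * d.gammaW))) * (d.W * d.W) := by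
    rw [Matrix.mul_assoc, h1, ← Matrix.mul_assoc, h2, Matrix.mul_assoc]
  rw [hW2] at h3
  have hdet : ((q : ℤ) • (1 : Matrix (Fin 2) (Fin 2) ℤ)).det ≠ 0 := by
    rw [Matrix.det_smul, Matrix.det_one, mul_one]
    exact pow_ne_zero _ (by exact_mod_cast d.hq.ne')
  have h4 : mat d.gammaW * mat (d.gammaW⁻¹ * g' * d.gammaW) =
      mat (d.conjW (d.conjW (d.gammaW⁻¹ * g' * d.gammaW))) * mat d.gammaW := by
    apply mul_right_cancel_of_det_ne_zero hdet
    have e1 : mat d.gammaW * mat (d.gammaW⁻¹ * g' * d.gammaW) *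
        ((q : ℤ) • (1 : Matrix (Fin 2) (Fin 2) ℤ)) =
        mat d.gammaW * ((q : ℤ) • (1 : Matrix (Fin 2) (Fin 2) ℤ)) *
          mat (d.gammaW⁻¹ * g' * d.gammaW) := by
      simp only [Matrix.mul_smul, Matrix.smul_mul, Matrix.mul_one]
    rw [e1, h3, Matrix.mul_assoc]
  rw [← mat_mul, ← mat_mul] at h4
  have h5 := mat_injective h4
  have h6 : d.gammaW * (d.gammaW⁻¹ * g' * d.gammaW) = g' * d.gammaW := by group
  rw [h6] at h5
  exact congrArg mat (mul_right_cancel h5).symm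

end ALData

end Fermat.Agent.S41.Level
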