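/-
S41 volunteer leaf (P3), degeneracy maps between levels `N` and `N q` (helper59).

For an abelian group `A`, `q` prime to `N`, Bezout data `d : ALData N q`:
* `res1 : Hom(Γ₀(N), A) → Hom(Γ₀(N q), A)` restriction,
* `tr1 : Hom(Γ₀(N q), A) → Hom(Γ₀(N), A)` transfer,
* `wAL d` the Atkin-Lehner involution on `Hom(Γ₀(N q), A)`,
* `res2 d = wAL d ∘ res1`, `tr2 d = tr1 ∘ wAL d`.
-/
import Mathlib
import Fermat.Agent.S41.Level.CosetSys
import Fermat.Agent.S41.Level.Transfer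
import Fermat.Agent.S41.Level.AtkinLehner

set_option autoImplicit false

namespace Fermat.Agent.S41.Level

open scoped MatrixGroups
open Matrix CongruenceSubgroup Fermat.Agent.S16.HeckeHom

variable (N q : ℕ)

theorem gamma0_mul_le : Gamma0 (N * q) ≤ Gamma0 N := by
  intro g hg
  rw [Gamma0_mem] at hg ⊢
  rw [ZMod.intCast_zmod_eq_zero_iff_dvd] at hg ⊢
  exact dvd_trans (by push_cast; exact dvd_mul_right _ _) hg

noncomputable instance instFintypeTrIdx [NeZero (N * q)] :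
    Fintype (Gamma0 N ⧸ (Gamma0 (N * q)).subgroupOf (Gamma0 N)) :=
  Subgroup.fintypeQuotientOfFiniteIndex

/-- The restriction system. -/
def resSys : WCS (Gamma0 (N * q)) (Gamma0 N) Unit := WCS.incl (gamma0_mul_le N q)

/-- The transfer system. -/
noncomputable def trSys :
    WCS (Gamma0 N) (Gamma0 (N * q)) (Gamma0 N ⧸ (Gamma0 (N * q)).subgroupOf (Gamma0 N)) :=
  transferSys (gamma0_mul_le N q)

variable {N q} {A : Type*} [AddCommGroup A]

/-- Restriction `Hom(Γ₀(N), A) → Hom(Γ₀(N q), A)`. -/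
def res1 (φ : Additive (Gamma0 N) →+ A) : Additive (Gamma0 (N * q)) →+ A := (resSys N q).op φ

theorem res1_apply (φ : Additive (Gamma0 N) →+ A) (g : Gamma0 (N * q)) :
    res1 φ (Additive.ofMul g) =
      φ (Additive.ofMul (Subgroup.inclusion (gamma0_mul_le N q) g)) := by
  rw [res1, resSys, WCS.op_incl]; rfl

/-- Transfer `Hom(Γ₀(N q), A) → Hom(Γ₀(N), A)`. -/
noncomputable def tr1 [NeZero (N * q)] (ψ : Additive (Gamma0 (N * q)) →+ A) :
    Additive (Gamma0 N) →+ A := (trSys N q).op ψ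

/-- The Atkin-Lehner involution on `Hom(Γ₀(N q), A)`. -/
noncomputable def wAL (d : ALData N q) (ψ : Additive (Gamma0 (N * q)) →+ A) :
    Additive (Gamma0 (N * q)) →+ A := d.alSys.op ψ

theorem wAL_wAL (d : ALData N q) (ψ : Additive (Gamma0 (N * q)) →+ A) :
    wAL d (wAL d ψ) = ψ := d.alSys_op_op ψ

/-- The second restriction map. -/
noncomputable def res2 (d : ALData N q) (φ : Additive (Gamma0 N) →+ A) :
    Additive (Gamma0 (N * q)) →+ A := wAL d (res1 φ)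

/-- The second transfer map. -/
noncomputable def tr2 [NeZero (N * q)] (d : ALData N q) (ψ : Additive (Gamma0 (N * q)) →+ A) :
    Additive (Gamma0 N) →+ A := tr1 (wAL d ψ)


theorem res1_add (φ φ' : Additive (Gamma0 N) →+ A) :
    (res1 (φ + φ') : Additive (Gamma0 (N * q)) →+ A) = res1 φ + res1 φ' := WCS.op_add _ φ φ'

theorem res1_sub (φ φ' : Additive (Gamma0 N) →+ A) :
    (res1 (φ - φ') : Additive (Gamma0 (N * q)) →+ A) = res1 φ - res1 φ' := WCS.op_sub _ φ φ'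

theorem res1_zsmul (n : ℤ) (φ : Additive (Gamma0 N) →+ A) :
    (res1 (n • φ) : Additive (Gamma0 (N * q)) →+ A) = n • res1 φ := WCS.op_zsmul _ n φ

theorem tr1_add [NeZero (N * q)] (ψ ψ' : Additive (Gamma0 (N * q)) →+ A) :
    tr1 (ψ + ψ') = tr1 ψ + tr1 ψ' := WCS.op_add _ ψ ψ'

theorem tr1_sub [NeZero (N * q)] (ψ ψ' : Additive (Gamma0 (N * q)) →+ A) :
    tr1 (ψ - ψ') = tr1 ψ - tr1 ψ' := WCS.op_sub _ ψ ψ'

theorem tr1_zsmul [NeZero (N * q)] (n : ℤ) (ψ : Additive (Gamma0 (N * q)) →+ A) :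
    tr1 (n • ψ) = n • tr1 ψ := WCS.op_zsmul _ n ψ

theorem tr1_zero [NeZero (N * q)] : tr1 (0 : Additive (Gamma0 (N * q)) →+ A) = 0 := WCS.op_zero _

theorem wAL_add (d : ALData N q) (ψ ψ' : Additive (Gamma0 (N * q)) →+ A) :
    wAL d (ψ + ψ') = wAL d ψ + wAL d ψ' := WCS.op_add _ ψ ψ'

theorem wAL_sub (d : ALData N q) (ψ ψ' : Additive (Gamma0 (N * q)) →+ A) :
    wAL d (ψ - ψ') = wAL d ψ - wAL d ψ' := WCS.op_sub _ ψ ψ'

theorem wAL_neg (d : ALData N q) (ψ : Additive (Gamma0 (N * q)) →+ A) :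
    wAL d (-ψ) = -wAL d ψ := WCS.op_neg _ ψ

theorem wAL_zsmul (d : ALData N q) (n : ℤ) (ψ : Additive (Gamma0 (N * q)) →+ A) :
    wAL d (n • ψ) = n • wAL d ψ := WCS.op_zsmul _ n ψ

theorem wAL_zero (d : ALData N q) : wAL d (0 : Additive (Gamma0 (N * q)) →+ A) = 0 :=
  WCS.op_zero _

/-- The coset system of `T_ℓ` at level `N` as a weak coset system. -/
noncomputable def sysT (N ℓ : ℕ) [Fact ℓ.Prime] (hℓ : ¬ ℓ ∣ N) :
    WCS (Gamma0 N) (Gamma0 N) (Option (Fin ℓ)) := (cosetT N ℓ hℓ).toUData.toWCS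

/-- The coset system of `U_r` at level `N` as a weak coset system. -/
noncomputable def sysU (N r : ℕ) [Fact r.Prime] (hr : r ∣ N) :
    WCS (Gamma0 N) (Gamma0 N) (Fin r) := (cosetU N r hr).toUData.toWCS

theorem sysT_op (N ℓ : ℕ) [Fact ℓ.Prime] (hℓ : ¬ ℓ ∣ N) (φ : Additive (Gamma0 N) →+ A) :
    (sysT N ℓ hℓ).op φ = (cosetT N ℓ hℓ).heckeHom φ := WCS.op_toUData _ φ

theorem sysU_op (N r : ℕ) [Fact r.Prime] (hr : r ∣ N) (φ : Additive (Gamma0 N) →+ A) :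
    (sysU N r hr).op φ = (cosetU N r hr).heckeHom φ := WCS.op_toUData _ φ

theorem sysT_rigid (N ℓ : ℕ) [Fact ℓ.Prime] (hℓ : ¬ ℓ ∣ N) : (sysT N ℓ hℓ).Rigid :=
  (cosetT N ℓ hℓ).toUData.rigid

theorem sysU_rigid (N r : ℕ) [Fact r.Prime] (hr : r ∣ N) : (sysU N r hr).Rigid :=
  (cosetU N r hr).toUData.rigid

theorem sysT_al (N ℓ : ℕ) [Fact ℓ.Prime] (hℓ : ¬ ℓ ∣ N) (i : Option (Fin ℓ)) :
    (sysT N ℓ hℓ).al i = alT ℓ i := rfl

theorem sysU_al (N r : ℕ) [Fact r.Prime] (hr : r ∣ N) (j : Fin r) :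
    (sysU N r hr).al j = alU r j := rfl

/-- (I1) Restriction commutes with `T_ℓ`, `ℓ ∤ N q`. -/
theorem res1_heckeT (ℓ : ℕ) [Fact ℓ.Prime] (hℓN : ¬ ℓ ∣ N) (hℓM : ¬ ℓ ∣ N * q)
    (φ : Additive (Gamma0 N) →+ A) :
    res1 ((cosetT N ℓ hℓN).heckeHom φ) = (cosetT (N * q) ℓ hℓM).heckeHom (res1 φ) := by
  rw [← sysT_op, ← sysT_op, res1, res1, ← WCS.op_comp, ← WCS.op_comp]
  symm
  refine WCS.op_eq_of_equiv _ _ ⟨?_, ?_⟩ (Equiv.prodComm _ _) (fun _ => 1) ?_ φ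
  · rintro ⟨u, i⟩
    rw [WCS.comp_al]
    show (alT ℓ i * 1).det ≠ 0
    rw [Matrix.mul_one, det_alT]
    exact_mod_cast (Fact.out : ℓ.Prime).ne_zero
  · rintro ⟨u, i⟩ ⟨u', i'⟩ g' h
    rw [WCS.comp_al, WCS.comp_al] at h
    have h' : alT ℓ i * 1 = mat g' * (alT ℓ i' * 1) := h
    rw [Matrix.mul_one, Matrix.mul_one] at h'
    have := (cosetT N ℓ hℓN).uniq i i' g' h'
    rw [this]
  · rintro ⟨i, u⟩
    rw [WCS.comp_al, WCS.comp_al, mat_one, Matrix.one_mul]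
    show (1 : Matrix (Fin 2) (Fin 2) ℤ) * alT ℓ i = alT ℓ i * 1
    rw [Matrix.one_mul, Matrix.mul_one]

end Fermat.Agent.S41.Level
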