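/-
S41 volunteer leaf (P3), instance (3c) (helper82), on top of helper59's `Level/CosetSys.lean`.

`q` a prime, `q ∤ N`.  The two restrictions `res₁, res₂ : Hom(Γ₀(N), A) → Hom(Γ₀(Nq), A)`
(inclusion, and conjugation by `B = !![q,0;0,1]`) and the two transfers
`tr₁, tr₂ : Hom(Γ₀(Nq), A) → Hom(Γ₀(N), A)` satisfy
`tr₁ res₁ = q + 1 = tr₂ res₂` and `tr₁ res₂ = T_q = tr₂ res₁`.

The statements are proved for ARBITRARY weak coset systems of the right shape:
* a restriction system of type 1 / type 2 is any `R : WCS (Gamma0 (N * q)) (Gamma0 N) Unit` with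
  `R.al () = 1`, resp. `R.al () = matB q`;
* a transfer system of type 1 / type 2 is any `C : WCS (Gamma0 N) (Gamma0 (N * q)) I` all of whose
  representatives are `mat h`, resp. `matB' q * mat h`, with `h : Gamma0 N`
  (`matB' q = !![1,0;0,q]`), which is rigid and has `q + 1` representatives.
Concrete systems `res1Sys, res2Sys, tr1Sys, tr2Sys` of these shapes are constructed as well.
-/
import Mathlib
import Fermat.Agent.S16.HeckeHom
import Fermat.Agent.S41.Level.CosetSys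

set_option autoImplicit false

namespace Fermat.Agent.S41.Level.Inst3c

open scoped MatrixGroups
open Matrix CongruenceSubgroup Fermat.Agent.S16.HeckeHom Fermat.Agent.S41.Level

/-! ### The matrices `B` and `B'` -/

/-- `B = !![q,0;0,1]`. -/
def matB (q : ℕ) : Matrix (Fin 2) (Fin 2) ℤ := !![(q : ℤ), 0; 0, 1]

/-- `B' = !![1,0;0,q]`, the adjugate of `B`. -/
def matB' (q : ℕ) : Matrix (Fin 2) (Fin 2) ℤ := !![1, 0; 0, (q : ℤ)]

theorem det_matB (q : ℕ) : (matB q).det = q := by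
  simp [matB, Matrix.det_fin_two_of]

theorem det_matB' (q : ℕ) : (matB' q).det = q := by
  simp [matB', Matrix.det_fin_two_of]

theorem matB_mul_matB' (q : ℕ) :
    matB q * matB' q = (q : ℤ) • (1 : Matrix (Fin 2) (Fin 2) ℤ) := by
  ext i j
  fin_cases i <;> fin_cases j <;> simp [matB, matB', Matrix.mul_apply, Fin.sum_univ_two]

theorem matB_eq_alT_none (q : ℕ) : matB q = alT q none := rfl

theorem matB_mul_apply_one_zero (q : ℕ) (M : Matrix (Fin 2) (Fin 2) ℤ) :
    (matB q * M) 1 0 = M 1 0 := by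
  simp [matB, Matrix.mul_apply, Fin.sum_univ_two]

theorem mul_matB_apply_one_zero (q : ℕ) (M : Matrix (Fin 2) (Fin 2) ℤ) :
    (M * matB q) 1 0 = M 1 0 * q := by
  simp [matB, Matrix.mul_apply, Fin.sum_univ_two]

theorem matB'_mul_apply_one_zero (q : ℕ) (M : Matrix (Fin 2) (Fin 2) ℤ) :
    (matB' q * M) 1 0 = q * M 1 0 := by
  simp [matB', Matrix.mul_apply, Fin.sum_univ_two]

theorem mul_matB'_apply_one_zero (q : ℕ) (M : Matrix (Fin 2) (Fin 2) ℤ) :
    (M * matB' q) 1 0 = M 1 0 := by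
  simp [matB', Matrix.mul_apply, Fin.sum_univ_two]

/-! ### `Γ₀(Nq) ≤ Γ₀(N)` and lifting -/

theorem mem_Gamma0_of_dvd (N : ℕ) (g : SL(2, ℤ))
    (h : (N : ℤ) ∣ (g : Matrix (Fin 2) (Fin 2) ℤ) 1 0) : g ∈ Gamma0 N := by
  rw [Gamma0_mem]
  exact (ZMod.intCast_zmod_eq_zero_iff_dvd _ N).mpr h

theorem gamma0_mul_le (N q : ℕ) : Gamma0 (N * q) ≤ Gamma0 N := by
  intro g hg
  have h1 : ((N * q : ℕ) : ℤ) ∣ (g : Matrix (Fin 2) (Fin 2) ℤ) 1 0 :=
    (ZMod.intCast_zmod_eq_zero_iff_dvd _ (N * q)).mp (Gamma0_mem.mp hg)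
  refine mem_Gamma0_of_dvd N g (dvd_trans ?_ h1)
  push_cast
  exact dvd_mul_right _ _

/-- An element of `Γ₀(N)` whose lower left entry is divisible by `N q`, as an element of
`Γ₀(N q)`. -/
def liftGamma0 {N : ℕ} (q : ℕ) (g : Gamma0 N) (h : ((N * q : ℕ) : ℤ) ∣ mat g 1 0) :
    Gamma0 (N * q) :=
  ⟨(g : SL(2, ℤ)), mem_Gamma0_of_dvd (N * q) _ h⟩

@[simp] theorem mat_liftGamma0 {N : ℕ} (q : ℕ) (g : Gamma0 N)
    (h : ((N * q : ℕ) : ℤ) ∣ mat g 1 0) : mat (liftGamma0 q g h) = mat g := rfl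

theorem mat_inclusion {G G' : Subgroup SL(2, ℤ)} (h : G ≤ G') (g : G) :
    mat (Subgroup.inclusion h g) = mat g := rfl

theorem dvd_q_mat_one_zero (N q : ℕ) (g : Gamma0 (N * q)) : (q : ℤ) ∣ mat g 1 0 := by
  refine dvd_trans ?_ (dvd_mat_one_zero (N * q) g)
  push_cast
  exact dvd_mul_left _ _

/-! ### Conjugation by `B` -/

section Conj

variable (N q : ℕ) [hq : Fact q.Prime]

omit hq in
private theorem conjB_det (g : Gamma0 (N * q)) :
    mat g 0 0 * mat g 1 1 - ((q : ℤ) * mat g 0 1) * (mat g 1 0 / (q : ℤ)) = 1 := by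
  have h1 : (q : ℤ) * (mat g 1 0 / (q : ℤ)) = mat g 1 0 :=
    Int.mul_ediv_cancel' (dvd_q_mat_one_zero N q g)
  have h2 := mat_det' (N * q) g
  calc mat g 0 0 * mat g 1 1 - ((q : ℤ) * mat g 0 1) * (mat g 1 0 / (q : ℤ))
      = mat g 0 0 * mat g 1 1 - mat g 0 1 * ((q : ℤ) * (mat g 1 0 / (q : ℤ))) := by ring
    _ = 1 := by rw [h1, h2]

private theorem conjB_dvd (g : Gamma0 (N * q)) : (N : ℤ) ∣ mat g 1 0 / (q : ℤ) := by
  have hq0 : (q : ℤ) ≠ 0 := by exact_mod_cast hq.out.ne_zero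
  obtain ⟨k, hk⟩ := dvd_mat_one_zero (N * q) g
  refine ⟨k, ?_⟩
  apply Int.ediv_eq_of_eq_mul_left hq0
  rw [hk]
  push_cast
  ring

/-- `g ↦ B g B⁻¹`, `Γ₀(Nq) → Γ₀(N)`, as a function. -/
def conjBFun (g : Gamma0 (N * q)) : Gamma0 N :=
  mkGamma0 N (mat g 0 0) ((q : ℤ) * mat g 0 1) (mat g 1 0 / (q : ℤ)) (mat g 1 1)
    (conjB_det N q g) (conjB_dvd N q g)

theorem matB_mul_mat (g : Gamma0 (N * q)) : matB q * mat g = mat (conjBFun N q g) * matB q := by
  have h1 : mat g 1 0 / (q : ℤ) * (q : ℤ) = mat g 1 0 :=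
    Int.ediv_mul_cancel (dvd_q_mat_one_zero N q g)
  rw [conjBFun, mat_mkGamma0]
  ext i j
  fin_cases i <;> fin_cases j <;>
    simp [matB, Matrix.mul_apply, Fin.sum_univ_two, h1, mul_comm]

/-- `g ↦ B g B⁻¹` as a group homomorphism `Γ₀(Nq) → Γ₀(N)`. -/
def conjB : Gamma0 (N * q) →* Gamma0 N where
  toFun := conjBFun N q
  map_one' := by
    have hB : (matB q).det ≠ 0 := by
      rw [det_matB]; exact_mod_cast hq.out.ne_zero
    apply mat_injective
    apply mul_right_cancel_of_det_ne_zero hB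
    rw [← matB_mul_mat, mat_one, mat_one, Matrix.mul_one, Matrix.one_mul]
  map_mul' g h := by
    have hB : (matB q).det ≠ 0 := by
      rw [det_matB]; exact_mod_cast hq.out.ne_zero
    apply mat_injective
    apply mul_right_cancel_of_det_ne_zero hB
    rw [← matB_mul_mat, mat_mul, mat_mul, ← Matrix.mul_assoc, matB_mul_mat, Matrix.mul_assoc,
      matB_mul_mat, Matrix.mul_assoc]

theorem matB_mul_mat' (g : Gamma0 (N * q)) : matB q * mat g = mat (conjB N q g) * matB q :=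
  matB_mul_mat N q g

theorem mat_conjB (g : Gamma0 (N * q)) :
    mat (conjB N q g) =
      !![mat g 0 0, (q : ℤ) * mat g 0 1; mat g 1 0 / (q : ℤ), mat g 1 1] := rfl

/-- The restriction system of type 1: inclusion `Γ₀(Nq) ≤ Γ₀(N)`. -/
def res1Sys : WCS (Gamma0 (N * q)) (Gamma0 N) Unit := WCS.incl (gamma0_mul_le N q)

/-- The restriction system of type 2: conjugation by `B`. -/
def res2Sys : WCS (Gamma0 (N * q)) (Gamma0 N) Unit :=
  WCS.single (matB q) (conjB N q) (matB_mul_mat' N q)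

omit hq in
@[simp] theorem res1Sys_al (u : Unit) : (res1Sys N q).al u = 1 := rfl

@[simp] theorem res2Sys_al (u : Unit) : (res2Sys N q).al u = matB q := rfl

omit hq in
theorem op_res1Sys {A : Type*} [AddCommGroup A] (φ : Additive (Gamma0 N) →+ A) :
    (res1Sys N q).op φ =
      φ.comp (MonoidHom.toAdditive (Subgroup.inclusion (gamma0_mul_le N q))) :=
  WCS.op_incl _ φ

theorem op_res2Sys {A : Type*} [AddCommGroup A] (φ : Additive (Gamma0 N) →+ A) :
    (res2Sys N q).op φ = φ.comp (MonoidHom.toAdditive (conjB N q)) :=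
  WCS.op_single _ _ _ φ

end Conj

/-! ### One-element systems are determined by their matrix -/

theorem op_unit_eq {G G' : Subgroup SL(2, ℤ)} (R R' : WCS G G' Unit)
    (hdet : (R.al ()).det ≠ 0) (h : R.al () = R'.al ()) {A : Type*} [AddCommGroup A]
    (φ : Additive G' →+ A) : R.op φ = R'.op φ := by
  refine AddMonoidHom.ext fun γ => ?_
  obtain ⟨g, rfl⟩ : ∃ g : G, Additive.ofMul g = γ := ⟨Additive.toMul γ, rfl⟩
  rw [WCS.op_apply, WCS.op_apply]
  refine Finset.sum_congr rfl fun u _ => ?_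
  have h1 := R.spec g u
  have h2 := R'.spec g u
  have hu : ∀ v : Unit, v = () := fun _ => rfl
  rw [hu u, hu (R.perm g ())] at h1
  rw [hu u, hu (R'.perm g ()), ← h, h1] at h2
  have h3 := mat_injective (mul_right_cancel_of_det_ne_zero hdet h2)
  rw [hu u, h3]

/-! ### The general identities -/

section General

variable {N q : ℕ} [hq : Fact q.Prime] {I : Type} [Fintype I] {A : Type*} [AddCommGroup A]

theorem comp_inclusion_rfl {G : Subgroup SL(2, ℤ)} (φ : Additive G →+ A) :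
    φ.comp (MonoidHom.toAdditive (Subgroup.inclusion (le_refl G))) = φ := by
  refine AddMonoidHom.ext fun γ => ?_
  rfl

omit hq in
/-- `tr₁ ∘ res₁ = [Γ₀(N) : Γ₀(Nq)]`. -/
theorem op_tr1_res1_card (C : WCS (Gamma0 N) (Gamma0 (N * q)) I)
    (hC : ∀ i, ∃ h : Gamma0 N, C.al i = mat h)
    (R : WCS (Gamma0 (N * q)) (Gamma0 N) Unit) (hR : R.al () = 1)
    (φ : Additive (Gamma0 N) →+ A) : C.op (R.op φ) = Fintype.card I • φ := by
  rw [← WCS.op_comp]
  choose h hh using hC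
  have key := WCS.op_eq_card_smul (C.comp R) (le_refl (Gamma0 N)) 1 one_ne_zero
    (fun x => h x.1) (fun x => by
      rw [WCS.comp_al, hR, hh, one_smul, Matrix.one_mul, Matrix.mul_one]) φ
  rw [key, Fintype.card_prod, Fintype.card_unit, mul_one, comp_inclusion_rfl]

/-- `tr₂ ∘ res₂ = [Γ₀(N) : Γ₀(Nq)]`. -/
theorem op_tr2_res2_card (C : WCS (Gamma0 N) (Gamma0 (N * q)) I)
    (hC : ∀ i, ∃ h : Gamma0 N, C.al i = matB' q * mat h)
    (R : WCS (Gamma0 (N * q)) (Gamma0 N) Unit) (hR : R.al () = matB q)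
    (φ : Additive (Gamma0 N) →+ A) : C.op (R.op φ) = Fintype.card I • φ := by
  have hq0 : (q : ℤ) ≠ 0 := by exact_mod_cast hq.out.ne_zero
  rw [← WCS.op_comp]
  choose h hh using hC
  have key := WCS.op_eq_card_smul (C.comp R) (le_refl (Gamma0 N)) (q : ℤ) hq0
    (fun x => h x.1) (fun x => by
      rw [WCS.comp_al, hR, hh, ← Matrix.mul_assoc, matB_mul_matB', Matrix.smul_mul,
        Matrix.one_mul, Matrix.mul_smul, Matrix.mul_one]) φ
  rw [key, Fintype.card_prod, Fintype.card_unit, mul_one, comp_inclusion_rfl]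

omit [Fintype I] in
/-- Rigidity of `tr₁` followed by `res₂`. -/
theorem rigid_tr1_res2 (C : WCS (Gamma0 N) (Gamma0 (N * q)) I) (hCr : C.Rigid)
    (hC : ∀ i, ∃ h : Gamma0 N, C.al i = mat h)
    (R : WCS (Gamma0 (N * q)) (Gamma0 N) Unit) (hR : R.al () = matB q) :
    (C.comp R).Rigid := by
  have hq0 : (q : ℤ) ≠ 0 := by exact_mod_cast hq.out.ne_zero
  choose h hh using hC
  refine ⟨fun x => ?_, fun x x' g' hx => ?_⟩
  · rw [WCS.comp_al, hR, hh, Matrix.det_mul, det_matB, mat_det, mul_one]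
    exact hq0
  · obtain ⟨i, u⟩ := x
    obtain ⟨i', u'⟩ := x'
    rw [WCS.comp_al, WCS.comp_al, hR, hh, hh] at hx
    -- `hx : B * mat (h i) = mat g' * (B * mat (h i'))`
    have hδ : matB q * mat (h i * (h i')⁻¹) = mat g' * matB q := by
      rw [mat_mul, ← Matrix.mul_assoc, hx]
      simp only [Matrix.mul_assoc]
      rw [mat_mul_inv, Matrix.mul_one]
    have h10 : mat (h i * (h i')⁻¹) 1 0 = mat g' 1 0 * q := by
      have := congrFun (congrFun hδ 1) 0
      rwa [matB_mul_apply_one_zero, mul_matB_apply_one_zero] at this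
    have hdvd : ((N * q : ℕ) : ℤ) ∣ mat (h i * (h i')⁻¹) 1 0 := by
      rw [h10]
      push_cast
      exact mul_dvd_mul_right (dvd_mat_one_zero N g') _
    have hii : i = i' := by
      apply hCr.uniq i i' (liftGamma0 q _ hdvd)
      rw [mat_liftGamma0, hh, hh, mat_mul, Matrix.mul_assoc, mat_inv_mul, Matrix.mul_one]
    subst hii
    rfl

/-- `tr₁ ∘ res₂ = T_q`. -/
theorem op_tr1_res2 (hqN : ¬ q ∣ N) (C : WCS (Gamma0 N) (Gamma0 (N * q)) I) (hCr : C.Rigid)
    (hcard : Fintype.card I = q + 1) (hC : ∀ i, ∃ h : Gamma0 N, C.al i = mat h)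
    (R : WCS (Gamma0 (N * q)) (Gamma0 N) Unit) (hR : R.al () = matB q)
    (φ : Additive (Gamma0 N) →+ A) : C.op (R.op φ) = (cosetT N q hqN).heckeHom φ := by
  rw [← WCS.op_comp, ← WCS.op_toUData]
  refine WCS.op_eq_of_forall_exists _ _ (rigid_tr1_res2 C hCr hC R hR) (UData.rigid _) ?_ ?_ φ
  · rw [Fintype.card_prod, Fintype.card_unit, mul_one, hcard, Fintype.card_option,
      Fintype.card_fin]
  · rintro ⟨i, u⟩
    obtain ⟨h, hh⟩ := hC i
    have hdet : (matB q * mat h).det = q := by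
      rw [Matrix.det_mul, det_matB, mat_det, mul_one]
    have hN : (N : ℤ) ∣ (matB q * mat h) 1 0 := by
      rw [matB_mul_apply_one_zero]
      exact dvd_mat_one_zero N h
    obtain ⟨j, g', hg'⟩ := exists_decompT N q hqN _ hdet hN
    refine ⟨j, g', ?_⟩
    rw [WCS.comp_al, hR, hh]
    exact hg'

omit [Fintype I] in
/-- Rigidity of `tr₂` followed by `res₁`. -/
theorem rigid_tr2_res1 (C : WCS (Gamma0 N) (Gamma0 (N * q)) I) (hCr : C.Rigid)
    (hC : ∀ i, ∃ h : Gamma0 N, C.al i = matB' q * mat h)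
    (R : WCS (Gamma0 (N * q)) (Gamma0 N) Unit) (hR : R.al () = 1) :
    (C.comp R).Rigid := by
  have hq0 : (q : ℤ) ≠ 0 := by exact_mod_cast hq.out.ne_zero
  choose h hh using hC
  refine ⟨fun x => ?_, fun x x' g' hx => ?_⟩
  · rw [WCS.comp_al, hR, hh, Matrix.one_mul, Matrix.det_mul, det_matB', mat_det, mul_one]
    exact hq0
  · obtain ⟨i, u⟩ := x
    obtain ⟨i', u'⟩ := x'
    rw [WCS.comp_al, WCS.comp_al, hR, hh, hh, Matrix.one_mul, Matrix.one_mul] at hx
    -- `hx : B' * mat (h i) = mat g' * (B' * mat (h i'))`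
    have hδ : matB' q * mat (h i * (h i')⁻¹) = mat g' * matB' q := by
      rw [mat_mul, ← Matrix.mul_assoc, hx]
      simp only [Matrix.mul_assoc]
      rw [mat_mul_inv, Matrix.mul_one]
    have h10 : (q : ℤ) * mat (h i * (h i')⁻¹) 1 0 = mat g' 1 0 := by
      have := congrFun (congrFun hδ 1) 0
      rwa [matB'_mul_apply_one_zero, mul_matB'_apply_one_zero] at this
    have hdvd : ((N * q : ℕ) : ℤ) ∣ mat g' 1 0 := by
      rw [← h10]
      push_cast
      rw [mul_comm (N : ℤ)]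
      exact mul_dvd_mul_left _ (dvd_mat_one_zero N _)
    have hii : i = i' := by
      apply hCr.uniq i i' (liftGamma0 q g' hdvd)
      rw [mat_liftGamma0, hh, hh]
      exact hx
    subst hii
    rfl

/-- `tr₂ ∘ res₁ = T_q`. -/
theorem op_tr2_res1 (hqN : ¬ q ∣ N) (C : WCS (Gamma0 N) (Gamma0 (N * q)) I) (hCr : C.Rigid)
    (hcard : Fintype.card I = q + 1) (hC : ∀ i, ∃ h : Gamma0 N, C.al i = matB' q * mat h)
    (R : WCS (Gamma0 (N * q)) (Gamma0 N) Unit) (hR : R.al () = 1)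
    (φ : Additive (Gamma0 N) →+ A) : C.op (R.op φ) = (cosetT N q hqN).heckeHom φ := by
  rw [← WCS.op_comp, ← WCS.op_toUData]
  refine WCS.op_eq_of_forall_exists _ _ (rigid_tr2_res1 C hCr hC R hR) (UData.rigid _) ?_ ?_ φ
  · rw [Fintype.card_prod, Fintype.card_unit, mul_one, hcard, Fintype.card_option,
      Fintype.card_fin]
  · rintro ⟨i, u⟩
    obtain ⟨h, hh⟩ := hC i
    have hdet : (matB' q * mat h).det = q := by
      rw [Matrix.det_mul, det_matB', mat_det, mul_one]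
    have hN : (N : ℤ) ∣ (matB' q * mat h) 1 0 := by
      rw [matB'_mul_apply_one_zero]
      exact Dvd.dvd.mul_left (dvd_mat_one_zero N h) _
    obtain ⟨j, g', hg'⟩ := exists_decompT N q hqN _ hdet hN
    refine ⟨j, g', ?_⟩
    rw [WCS.comp_al, hR, hh, Matrix.one_mul]
    exact hg'

end General

end Fermat.Agent.S41.Level.Inst3c
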