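/-
S41 volunteer leaf (P3), instances (I4)+(I5) (helper82), on top of helper59's `Level/Degeneracy`.

`q` prime, `q ∤ N`:
* `card_trIdx : [Γ₀(N) : Γ₀(N q)] = q + 1`;
* `tr1_res1 : tr1 (res1 φ) = (q + 1) • φ`;
* `tr1_wAL_res1 : tr1 (wAL d (res1 φ)) = T_q φ`;
* the `B`-form of `res2`: `wAL d (res1 φ) (g₁) = φ (g₂)` whenever `B g₁ = g₂ B`, `B = !![q,0;0,1]`
  (`wAL_res1_apply_of_eq`), in particular `wAL d (res1 φ)` does not depend on `d`;
* the matrix of `β ∘ α`: `tr1_res2`, `tr2_res1`, `tr2_res2`.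
The general (representation independent) statements are in `Level/Inst3c`.
-/
import Mathlib
import Fermat.Agent.S41.Level.Degeneracy
import Fermat.Agent.S41.Level.Inst3c

set_option autoImplicit false

namespace Fermat.Agent.S41.Level

open scoped MatrixGroups
open Matrix CongruenceSubgroup Fermat.Agent.S16.HeckeHom

/-! ### Counting representatives -/

namespace WCS

variable {G G' : Subgroup SL(2, ℤ)} {I J : Type} [Fintype I] [Fintype J]

theorem card_le_of_forall_exists (C : WCS G G' I) (D : WCS G G' J) (hC : C.Rigid)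
    (hex : ∀ i, ∃ (j : J) (g' : G'), C.al i = mat g' * D.al j) :
    Fintype.card I ≤ Fintype.card J := by
  choose s h hs using hex
  refine Fintype.card_le_of_injective s ?_
  intro i i' hii
  have h1 := hs i
  have h2 := hs i'
  rw [hii] at h1
  apply hC.uniq i i' (h i * (h i')⁻¹)
  rw [h1, h2, mat_mul, Matrix.mul_assoc, ← Matrix.mul_assoc (mat (h i')⁻¹), mat_inv_mul,
    Matrix.one_mul]

/-- Two rigid families which are equivalent in both directions have the same cardinality. -/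
theorem card_eq_of_forall_exists (C : WCS G G' I) (D : WCS G G' J) (hC : C.Rigid)
    (hD : D.Rigid) (h1 : ∀ i, ∃ (j : J) (g' : G'), C.al i = mat g' * D.al j)
    (h2 : ∀ j, ∃ (i : I) (g' : G'), D.al j = mat g' * C.al i) :
    Fintype.card I = Fintype.card J :=
  le_antisymm (card_le_of_forall_exists C D hC h1) (card_le_of_forall_exists D C hD h2)

end WCS

variable {N q : ℕ}

/-! ### Explicit elements of `Γ₀(N)` attached to Bezout data -/

namespace ALData

variable (d : ALData N q)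

/-- `γ'' = !![x, 1; N z, q] ∈ Γ₀(N)`: `W = γ'' * B`. -/
def gammaB : Gamma0 N :=
  mkGamma0 N d.x 1 ((N : ℤ) * d.z) (q : ℤ) (by linear_combination d.hxz) ⟨d.z, rfl⟩

theorem W_eq_gammaB_mul : d.W = mat d.gammaB * Inst3c.matB q := by
  rw [gammaB, mat_mkGamma0, W, Inst3c.matB]
  ext i j
  fin_cases i <;> fin_cases j <;> simp [Matrix.mul_apply, Fin.sum_univ_two] <;> ring

/-- `h_j = !![1, j - 1; - N z, q x - N z j] ∈ Γ₀(N)`: `!![1, j; 0, q] = γ'' * B * h_j`. -/
def hU (j : ℤ) : Gamma0 N :=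
  mkGamma0 N 1 (j - 1) (-((N : ℤ) * d.z)) ((q : ℤ) * d.x - (N : ℤ) * d.z * j)
    (by linear_combination d.hxz) ⟨-d.z, by ring⟩

theorem alU_eq (j : ℤ) :
    (!![1, j; 0, (q : ℤ)] : Matrix (Fin 2) (Fin 2) ℤ) =
      mat d.gammaB * (Inst3c.matB q * mat (d.hU j)) := by
  have hx := d.hxz
  rw [gammaB, hU, mat_mkGamma0, mat_mkGamma0, Inst3c.matB]
  ext i k
  fin_cases i <;> fin_cases k
  · simp [Matrix.mul_apply, Fin.sum_univ_two]
    linear_combination (-1 : ℤ) * hx
  · simp [Matrix.mul_apply, Fin.sum_univ_two]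
    linear_combination (-j) * hx
  · simp [Matrix.mul_apply, Fin.sum_univ_two]
    ring
  · simp [Matrix.mul_apply, Fin.sum_univ_two]
    linear_combination (-(q : ℤ)) * hx

end ALData

section Main

variable [hq : Fact q.Prime]

/-! ### The `B`-form of `res2` -/

theorem res2Sys_rigid : (Inst3c.res2Sys N q).Rigid := by
  refine ⟨fun _ => ?_, fun _ _ _ _ => rfl⟩
  rw [Inst3c.res2Sys_al, Inst3c.det_matB]
  exact_mod_cast hq.out.ne_zero

variable {A : Type*} [AddCommGroup A]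

/-- `wAL d ∘ res1` is the operator of the one-element system `{B}`, `B = !![q,0;0,1]`. -/
theorem wAL_res1_eq_op (d : ALData N q) (φ : Additive (Gamma0 N) →+ A) :
    wAL d (res1 φ) = (Inst3c.res2Sys N q).op φ := by
  rw [wAL, res1, ← WCS.op_comp]
  refine WCS.op_eq_of_equiv _ _ res2Sys_rigid (Equiv.prodUnique Unit Unit)
    (fun _ => d.gammaB) (fun x => ?_) φ
  rw [WCS.comp_al, Inst3c.res2Sys_al, ← d.W_eq_gammaB_mul]
  show (1 : Matrix (Fin 2) (Fin 2) ℤ) * d.W = d.W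
  rw [Matrix.one_mul]

/-- Evaluation of `res2 = wAL d ∘ res1`: conjugation by `B`. -/
theorem wAL_res1_apply (d : ALData N q) (φ : Additive (Gamma0 N) →+ A) (g : Gamma0 (N * q)) :
    wAL d (res1 φ) (Additive.ofMul g) = φ (Additive.ofMul (Inst3c.conjB N q g)) := by
  rw [wAL_res1_eq_op, Inst3c.op_res2Sys]
  rfl

/-- (I7) The `B`-form of `res2`, in the literal relation shape of Ihara's lemma. -/
theorem wAL_res1_apply_of_eq (d : ALData N q) (φ : Additive (Gamma0 N) →+ A)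
    (g1 : Gamma0 (N * q)) (g2 : Gamma0 N)
    (h : (!![(q : ℤ), 0; 0, 1] : Matrix (Fin 2) (Fin 2) ℤ) * mat g1 =
      mat g2 * !![(q : ℤ), 0; 0, 1]) :
    wAL d (res1 φ) (Additive.ofMul g1) = φ (Additive.ofMul g2) := by
  rw [wAL_res1_apply]
  have hB : (Inst3c.matB q).det ≠ 0 := by
    rw [Inst3c.det_matB]; exact_mod_cast hq.out.ne_zero
  have h1 : mat (Inst3c.conjB N q g1) * Inst3c.matB q = mat g2 * Inst3c.matB q := by
    rw [← Inst3c.matB_mul_mat']
    exact h
  rw [mat_injective (mul_right_cancel_of_det_ne_zero hB h1)]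

theorem res2_apply (d : ALData N q) (φ : Additive (Gamma0 N) →+ A) (g : Gamma0 (N * q)) :
    res2 d φ (Additive.ofMul g) = φ (Additive.ofMul (Inst3c.conjB N q g)) :=
  wAL_res1_apply d φ g

/-- `res2` does not depend on the Bezout data. -/
theorem res2_eq_res2 (d d' : ALData N q) (φ : Additive (Gamma0 N) →+ A) :
    res2 d φ = res2 d' φ := by
  rw [res2, res2, wAL_res1_eq_op, wAL_res1_eq_op]

/-! ### The index -/

omit hq in
theorem trSys_al_eq (k : Gamma0 N ⧸ (Gamma0 (N * q)).subgroupOf (Gamma0 N)) :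
    ∃ h : Gamma0 N, (trSys N q).al k = mat h :=
  ⟨_, transferSys_al _ k⟩

/-- Every `B * h`, `h ∈ Γ₀(N)`, is a `Γ₀(N)`-multiple of some `B * r_k`. -/
theorem exists_matB_mul_decomp (h : Gamma0 N) :
    ∃ (k : Gamma0 N ⧸ (Gamma0 (N * q)).subgroupOf (Gamma0 N)) (γ : Gamma0 N),
      Inst3c.matB q * mat h = mat γ * (Inst3c.matB q * (trSys N q).al k) := by
  obtain ⟨k, g', hk⟩ := exists_transfer_decomp (gamma0_mul_le N q) h
  refine ⟨k, Inst3c.conjB N q g', ?_⟩
  rw [hk, ← Matrix.mul_assoc, Inst3c.matB_mul_mat', Matrix.mul_assoc]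
  rfl

/-- (I5, index) `[Γ₀(N) : Γ₀(N q)] = q + 1`. -/
theorem card_trIdx [NeZero (N * q)] (hqN : ¬ q ∣ N) :
    Fintype.card (Gamma0 N ⧸ (Gamma0 (N * q)).subgroupOf (Gamma0 N)) = q + 1 := by
  have hqp : q.Prime := hq.out
  obtain ⟨d⟩ := ALData.nonempty hqp.pos ((Nat.Prime.coprime_iff_not_dvd hqp).mpr hqN)
  have key := WCS.card_eq_of_forall_exists ((trSys N q).comp (Inst3c.res2Sys N q))
    (sysT N q hqN)
    (Inst3c.rigid_tr1_res2 (trSys N q) (transferSys_rigid _) trSys_al_eq _ rfl)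
    (sysT_rigid N q hqN) ?_ ?_
  · rw [Fintype.card_prod, Fintype.card_unit, mul_one, Fintype.card_option,
      Fintype.card_fin] at key
    exact key
  · rintro ⟨k, u⟩
    obtain ⟨h, hh⟩ := trSys_al_eq (N := N) (q := q) k
    have hdet : (Inst3c.matB q * mat h).det = q := by
      rw [Matrix.det_mul, Inst3c.det_matB, mat_det, mul_one]
    have hN : (N : ℤ) ∣ (Inst3c.matB q * mat h) 1 0 := by
      rw [Inst3c.matB_mul_apply_one_zero]
      exact dvd_mat_one_zero N h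
    obtain ⟨j, g', hg'⟩ := exists_decompT N q hqN _ hdet hN
    refine ⟨j, g', ?_⟩
    rw [WCS.comp_al, Inst3c.res2Sys_al, hh, sysT_al]
    exact hg'
  · intro j
    rw [sysT_al]
    cases j with
    | none =>
      obtain ⟨k, γ, hk⟩ := exists_matB_mul_decomp (N := N) (q := q) 1
      refine ⟨(k, ()), γ, ?_⟩
      rw [WCS.comp_al, Inst3c.res2Sys_al, ← hk, mat_one, Matrix.mul_one]
      rfl
    | some j =>
      obtain ⟨k, γ, hk⟩ := exists_matB_mul_decomp (N := N) (q := q) (d.hU ((j : ℕ) : ℤ))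
      refine ⟨(k, ()), d.gammaB * γ, ?_⟩
      rw [WCS.comp_al, Inst3c.res2Sys_al, mat_mul, Matrix.mul_assoc, ← hk, ← d.alU_eq]
      rfl

/-! ### (I4), (I5) and the matrix of `β ∘ α` -/

/-- (I4) `tr1 ∘ res1 = q + 1`. -/
theorem tr1_res1 [NeZero (N * q)] (hqN : ¬ q ∣ N) (φ : Additive (Gamma0 N) →+ A) :
    tr1 (res1 (q := q) φ) = (q + 1) • φ := by
  have h := Inst3c.op_tr1_res1_card (trSys N q) trSys_al_eq (resSys N q) rfl φ
  rw [card_trIdx (N := N) (q := q) hqN] at h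
  exact h

/-- (I4) with an integer scalar (the literal shape `H4` of `Assembly/Instance.lean`). -/
theorem tr1_res1_int [NeZero (N * q)] (hqN : ¬ q ∣ N) (φ : Additive (Gamma0 N) →+ A) :
    tr1 (res1 (q := q) φ) = ((q : ℤ) + 1) • φ := by
  rw [tr1_res1 hqN, ← natCast_zsmul]
  push_cast
  rfl

/-- (I5) `tr1 ∘ wAL ∘ res1 = T_q`. -/
theorem tr1_wAL_res1 [NeZero (N * q)] (hqN : ¬ q ∣ N) (d : ALData N q)
    (φ : Additive (Gamma0 N) →+ A) :
    tr1 (wAL d (res1 φ)) = (cosetT N q hqN).heckeHom φ := by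
  rw [wAL_res1_eq_op, tr1]
  exact Inst3c.op_tr1_res2 hqN (trSys N q) (transferSys_rigid _) (card_trIdx hqN) trSys_al_eq
    (Inst3c.res2Sys N q) rfl φ

theorem tr1_res2 [NeZero (N * q)] (hqN : ¬ q ∣ N) (d : ALData N q)
    (φ : Additive (Gamma0 N) →+ A) : tr1 (res2 d φ) = (cosetT N q hqN).heckeHom φ :=
  tr1_wAL_res1 hqN d φ

theorem tr2_res1 [NeZero (N * q)] (hqN : ¬ q ∣ N) (d : ALData N q)
    (φ : Additive (Gamma0 N) →+ A) : tr2 d (res1 φ) = (cosetT N q hqN).heckeHom φ :=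
  tr1_wAL_res1 hqN d φ

theorem tr2_res2 [NeZero (N * q)] (hqN : ¬ q ∣ N) (d : ALData N q)
    (φ : Additive (Gamma0 N) →+ A) : tr2 d (res2 d φ) = (q + 1) • φ := by
  rw [tr2, res2, wAL_wAL, tr1_res1 hqN]

theorem tr2_res2_int [NeZero (N * q)] (hqN : ¬ q ∣ N) (d : ALData N q)
    (φ : Additive (Gamma0 N) →+ A) : tr2 d (res2 d φ) = ((q : ℤ) + 1) • φ := by
  rw [tr2, res2, wAL_wAL, tr1_res1_int hqN]

end Main

end Fermat.Agent.S41.Level
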