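/-
S41 volunteer leaf (P3), instance (I6) = (3e)-input, SECOND SEAT copy (helper11; owner of the
primary `Level/InstUW.lean` is helper97).

`res1 (tr1 (wAL d ψ)) = U_q ψ + wAL d ψ` on `Hom(Γ₀(N q), A)`, for every coefficient group `A`,
WITHOUT the cardinality hypothesis: both families are rigid and each representative of one is a
left `Γ₀(N q)`-multiple of a representative of the other, so the index sets are in bijection.
By-product: `[Γ₀(N) : Γ₀(N q)] = q + 1`.
-/
import Mathlib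
import Fermat.Agent.S41.Level.Degeneracy

set_option autoImplicit false
set_option linter.unusedSectionVars false

namespace Fermat.Agent.S41.Level.InstUWB

open scoped MatrixGroups
open Matrix CongruenceSubgroup Fermat.Agent.S16.HeckeHom Fermat.Agent.S41.Level

/-! ### Generic lemmas -/

/-- Left cancellation of an integer matrix with nonzero determinant. -/
theorem mul_left_cancel_of_det_ne_zero {X Y M : Matrix (Fin 2) (Fin 2) ℤ} (hM : M.det ≠ 0)
    (h : M * X = M * Y) : X = Y := by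
  have h1 : M.adjugate * (M * X) = M.adjugate * (M * Y) := by rw [h]
  rw [← Matrix.mul_assoc, ← Matrix.mul_assoc, Matrix.adjugate_mul] at h1
  ext i j
  have h2 := congrFun (congrFun h1 i) j
  simp only [Matrix.smul_mul, Matrix.one_mul, Matrix.smul_apply, smul_eq_mul] at h2
  exact mul_left_cancel₀ hM h2

/-- Two rigid systems each of whose representatives is a left multiple of a representative of
the other have index sets of the same cardinality. -/
theorem card_eq_of_forall_exists_both {G G' : Subgroup SL(2, ℤ)} {I J : Type} [Fintype I]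
    [Fintype J] (C : WCS G G' I) (D : WCS G G' J) (hC : C.Rigid) (hD : D.Rigid)
    (hex : ∀ i, ∃ (j : J) (g' : G'), C.al i = mat g' * D.al j)
    (hex' : ∀ j, ∃ (i : I) (g' : G'), D.al j = mat g' * C.al i) :
    Fintype.card I = Fintype.card J := by
  choose s h hs using hex
  have hinj : Function.Injective s := by
    intro i i' hii
    have h1 := hs i
    have h2 := hs i'
    rw [hii] at h1
    apply hC.uniq i i' (h i * (h i')⁻¹)
    rw [h1, h2, mat_mul, Matrix.mul_assoc, ← Matrix.mul_assoc (mat (h i')⁻¹), mat_inv_mul,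
      Matrix.one_mul]
  have hsurj : Function.Surjective s := by
    intro j
    obtain ⟨i, g', hg'⟩ := hex' j
    refine ⟨i, ?_⟩
    have h1 : D.al j = mat (g' * h i) * D.al (s i) := by
      rw [hg', hs i, mat_mul, Matrix.mul_assoc]
    exact (hD.uniq j (s i) _ h1).symm
  exact Fintype.card_of_bijective ⟨hinj, hsurj⟩

/-- Comparison of two rigid systems without a cardinality hypothesis. -/
theorem op_eq_of_forall_exists_both {G G' : Subgroup SL(2, ℤ)} {I J : Type} [Fintype I]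
    [Fintype J] (C : WCS G G' I) (D : WCS G G' J) (hC : C.Rigid) (hD : D.Rigid)
    (hex : ∀ i, ∃ (j : J) (g' : G'), C.al i = mat g' * D.al j)
    (hex' : ∀ j, ∃ (i : I) (g' : G'), D.al j = mat g' * C.al i)
    {A : Type*} [AddCommGroup A] (φ : Additive G' →+ A) : C.op φ = D.op φ :=
  WCS.op_eq_of_forall_exists C D hC hD (card_eq_of_forall_exists_both C D hC hD hex hex') hex φ

/-! ### The two systems -/

section Systems

variable {N q : ℕ} [NeZero (N * q)] [Fact q.Prime] (d : ALData N q)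

/-- The index type of the transfer from `Γ₀(N q)` to `Γ₀(N)`. -/
abbrev K (N q : ℕ) : Type := Gamma0 N ⧸ (Gamma0 (N * q)).subgroupOf (Gamma0 N)

/-- The system of `res1 ∘ tr1 ∘ wAL`: representatives `W * r_k`. -/
noncomputable def sysC : WCS (Gamma0 (N * q)) (Gamma0 (N * q)) (Unit × (K N q × Unit)) :=
  (resSys N q).comp ((trSys N q).comp d.alSys)

/-- The system of `U_q + wAL`: representatives `alU q j` and `W`. -/
noncomputable def sysD : WCS (Gamma0 (N * q)) (Gamma0 (N * q)) (Fin q ⊕ Unit) :=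
  (sysU (N * q) q (dvd_mul_left q N)).sum d.alSys

theorem sysC_al (x : Unit × (K N q × Unit)) :
    (sysC d).al x = d.W * mat ((Quotient.out x.2.1 : Gamma0 N)⁻¹) := by
  show (d.W * mat ((Quotient.out x.2.1 : Gamma0 N)⁻¹)) * 1 = _
  rw [Matrix.mul_one]

theorem sysD_al_inl (j : Fin q) : (sysD d).al (Sum.inl j) = alU q j := rfl

theorem sysD_al_inr (u : Unit) : (sysD d).al (Sum.inr u) = d.W := rfl

theorem sysC_op {A : Type*} [AddCommGroup A] (ψ : Additive (Gamma0 (N * q)) →+ A) :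
    (sysC d).op ψ = res1 (tr1 (wAL d ψ)) := by
  rw [sysC, WCS.op_comp, WCS.op_comp]
  rfl

theorem sysD_op {A : Type*} [AddCommGroup A] (ψ : Additive (Gamma0 (N * q)) →+ A) :
    (sysD d).op ψ = (cosetU (N * q) q (dvd_mul_left q N)).heckeHom ψ + wAL d ψ := by
  rw [sysD, WCS.op_sum, sysU_op]
  rfl

/-! ### Rigidity -/

theorem sysC_rigid : (sysC d).Rigid := by
  refine ⟨fun x => ?_, fun x x' g' h => ?_⟩
  · rw [sysC_al, Matrix.det_mul, mat_det, mul_one]
    exact d.det_W_ne
  · rw [sysC_al, sysC_al] at h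
    obtain ⟨g₀, hg₀⟩ := d.conjW_surjective g'
    have h1 := d.conjW_spec g₀
    rw [hg₀] at h1
    -- `W * r_k = W * (g₀ * r_k')`
    have h2 : d.W * mat ((Quotient.out x.2.1 : Gamma0 N)⁻¹) =
        d.W * (mat g₀ * mat ((Quotient.out x'.2.1 : Gamma0 N)⁻¹)) := by
      rw [h, ← Matrix.mul_assoc, ← h1, Matrix.mul_assoc]
    have h3 := mul_left_cancel_of_det_ne_zero d.det_W_ne h2
    have h4 : x.2.1 = x'.2.1 :=
      (transferSys_rigid (gamma0_mul_le N q)).uniq x.2.1 x'.2.1 g₀ h3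
    obtain ⟨u, k, u'⟩ := x
    obtain ⟨v, k', v'⟩ := x'
    simp only at h4
    subst h4
    rfl

theorem sysD_rigid : (sysD d).Rigid := by
  refine WCS.Rigid.sum (sysU_rigid (N * q) q (dvd_mul_left q N)) d.alSys_rigid ?_
  intro j u g' h
  rw [sysU_al, d.alSys_al] at h
  have h00 := congrFun (congrFun h 0) 0
  have hq : (q : ℤ) ∣ 1 := by
    refine ⟨mat g' 0 0 * d.x + mat g' 0 1 * ((N : ℤ) * d.z), ?_⟩
    simp only [alU, ALData.W, Matrix.mul_apply, Fin.sum_univ_two, Matrix.of_apply,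
      Matrix.cons_val', Matrix.cons_val_zero, Matrix.cons_val_fin_one, Matrix.cons_val_one] at h00
    rw [h00]
    ring
  have hq1 : q = 1 := by
    have := Int.natAbs_dvd_natAbs.mpr hq
    simpa using this
  exact (Fact.out : q.Prime).one_lt.ne' hq1

/-! ### Existence of decompositions in both directions -/

theorem sysC_ex (hqN : ¬ q ∣ N) (x : Unit × (K N q × Unit)) :
    ∃ (j : Fin q ⊕ Unit) (g' : Gamma0 (N * q)), (sysC d).al x = mat g' * (sysD d).al j := by
  rw [sysC_al]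
  set γ : Gamma0 N := (Quotient.out x.2.1 : Gamma0 N)⁻¹ with hγ
  have hN := dvd_mat_one_zero N γ
  by_cases hc : (q : ℤ) ∣ mat γ 1 0
  · -- `γ ∈ Γ₀(N q)`: conjugate by `W`
    have hcop : IsCoprime (N : ℤ) (q : ℤ) := by
      rw [Int.isCoprime_iff_gcd_eq_one, Int.gcd_natCast_natCast]
      exact (Nat.coprime_comm.mp ((Nat.Prime.coprime_iff_not_dvd Fact.out).mpr hqN))
    have hNq : ((N * q : ℕ) : ℤ) ∣ mat γ 1 0 := by
      push_cast
      exact hcop.mul_dvd hN hc
    have hmem : (γ : SL(2, ℤ)) ∈ Gamma0 (N * q) := by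
      rw [Gamma0_mem, ZMod.intCast_zmod_eq_zero_iff_dvd]
      exact hNq
    refine ⟨Sum.inr (), d.conjW ⟨(γ : SL(2, ℤ)), hmem⟩, ?_⟩
    rw [sysD_al_inr, ← d.conjW_spec ⟨(γ : SL(2, ℤ)), hmem⟩]
    rfl
  · -- otherwise `W * γ` is a left multiple of some `alU q j`
    have hM00 : (d.W * mat γ) 0 0 = (q : ℤ) * d.x * mat γ 0 0 + mat γ 1 0 := by
      simp [ALData.W, Matrix.mul_apply, Fin.sum_univ_two]
    have hM10 : (d.W * mat γ) 1 0 = (N : ℤ) * q * d.z * mat γ 0 0 + q * mat γ 1 0 := by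
      simp [ALData.W, Matrix.mul_apply, Fin.sum_univ_two]
    have hdet : (d.W * mat γ).det = q := by rw [Matrix.det_mul, mat_det, mul_one, d.det_W]
    have hNq : ((N * q : ℕ) : ℤ) ∣ (d.W * mat γ) 1 0 := by
      obtain ⟨c', hc'⟩ := hN
      rw [hM10, hc']
      push_cast
      exact ⟨d.z * mat γ 0 0 + c', by ring⟩
    have h00 : ¬ ((q : ℤ) ∣ (d.W * mat γ) 0 0 ∧ (q : ℤ) ∣ (d.W * mat γ) 1 0) := by
      rintro ⟨h1, -⟩
      apply hc
      rw [hM00] at h1
      have h2 : (q : ℤ) ∣ (q : ℤ) * d.x * mat γ 0 0 := ⟨d.x * mat γ 0 0, by ring⟩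
      exact (dvd_add_right h2).mp h1
    obtain ⟨j, g, hg⟩ := exists_some_decomp (N * q) q (d.W * mat γ) hdet hNq h00
    exact ⟨Sum.inl j, g, hg⟩

theorem sysD_ex (j : Fin q ⊕ Unit) :
    ∃ (x : Unit × (K N q × Unit)) (g' : Gamma0 (N * q)), (sysD d).al j = mat g' * (sysC d).al x := by
  -- it suffices to write the representative as `W * mat γ` with `γ : Γ₀(N)`
  suffices h : ∃ γ : Gamma0 N, (sysD d).al j = d.W * mat γ by
    obtain ⟨γ, hγ⟩ := h
    obtain ⟨k, g₁, hk⟩ := exists_transfer_decomp (gamma0_mul_le N q) γ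
    refine ⟨((), (k, ())), d.conjW g₁, ?_⟩
    rw [hγ, sysC_al, hk, transferSys_al, ← Matrix.mul_assoc, d.conjW_spec g₁, Matrix.mul_assoc]
  rcases j with j | u
  · refine ⟨mkGamma0 N 1 (((j : ℕ) : ℤ) - 1) (-(N : ℤ) * d.z)
      ((q : ℤ) * d.x - (N : ℤ) * d.z * ((j : ℕ) : ℤ)) (by linear_combination d.hxz)
      ⟨-d.z, by ring⟩, ?_⟩
    rw [sysD_al_inl, mat_mkGamma0, alU, ALData.W]
    have hx := d.hxz
    ext i k
    fin_cases i <;> fin_cases k <;> simp [Matrix.mul_apply, Fin.sum_univ_two] <;>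
      first
        | ring1
        | linear_combination (-1 : ℤ) * hx
        | linear_combination (-((j : ℕ) : ℤ)) * hx
        | linear_combination (-(q : ℤ)) * hx
  · refine ⟨1, ?_⟩
    rw [sysD_al_inr, mat_one, Matrix.mul_one]

/-! ### The results -/

/-- **(I6).**  `res1 ∘ tr1 ∘ wAL = U_q + wAL` on `Hom(Γ₀(N q), A)`, any coefficient group. -/
theorem res1_tr1_wAL (hqN : ¬ q ∣ N) {A : Type*} [AddCommGroup A]
    (ψ : Additive (Gamma0 (N * q)) →+ A) :
    res1 (tr1 (wAL d ψ)) = (cosetU (N * q) q (dvd_mul_left q N)).heckeHom ψ + wAL d ψ := by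
  rw [← sysC_op, ← sysD_op]
  exact op_eq_of_forall_exists_both (sysC d) (sysD d) (sysC_rigid d) (sysD_rigid d)
    (sysC_ex d hqN) (sysD_ex d) ψ

/-- `res2 ∘ tr1 ∘ wAL`-free form: `res1 (tr2 d ψ) = U_q ψ + wAL d ψ`. -/
theorem res1_tr2 (hqN : ¬ q ∣ N) {A : Type*} [AddCommGroup A]
    (ψ : Additive (Gamma0 (N * q)) →+ A) :
    res1 (tr2 d ψ) = (cosetU (N * q) q (dvd_mul_left q N)).heckeHom ψ + wAL d ψ :=
  res1_tr1_wAL d hqN ψ

end Systems

/-- By-product: the index of `Γ₀(N q)` in `Γ₀(N)` is `q + 1` (given Bezout data). -/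
theorem card_trIdx_of_alData {N q : ℕ} [NeZero (N * q)] [Fact q.Prime] (d : ALData N q)
    (hqN : ¬ q ∣ N) : Fintype.card (K N q) = q + 1 := by
  have h := card_eq_of_forall_exists_both (sysC d) (sysD d) (sysC_rigid d) (sysD_rigid d)
    (sysC_ex d hqN) (sysD_ex d)
  simpa [Fintype.card_prod, Fintype.card_sum] using h

/-- The index of `Γ₀(N q)` in `Γ₀(N)` is `q + 1` for a prime `q ∤ N`. -/
theorem card_trIdx {N q : ℕ} [NeZero (N * q)] [Fact q.Prime] (hqN : ¬ q ∣ N) :
    Fintype.card (Gamma0 N ⧸ (Gamma0 (N * q)).subgroupOf (Gamma0 N)) = q + 1 := by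
  obtain ⟨d⟩ := ALData.nonempty (N := N) (q := q) (Fact.out : q.Prime).pos
    ((Nat.Prime.coprime_iff_not_dvd Fact.out).mpr hqN)
  exact card_trIdx_of_alData d hqN

end Fermat.Agent.S41.Level.InstUWB
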