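/-
S41 volunteer leaf (P3)(3e), corollaries of (I6) (helper11): on `ker tr1 ∩ ker tr2` the operator
`U_q` of level `N q` equals `- wAL`, preserves the intersection and squares to the identity.
Any coefficient group.
-/
import Mathlib
import Fermat.Agent.S41.Level.InstUWB

set_option autoImplicit false

namespace Fermat.Agent.S41.Level.InstUWB

open scoped MatrixGroups
open Matrix CongruenceSubgroup Fermat.Agent.S16.HeckeHom Fermat.Agent.S41.Level

variable {N q : ℕ} [NeZero (N * q)] [Fact q.Prime] (d : ALData N q) {A : Type*} [AddCommGroup A]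

omit [NeZero (N * q)] [Fact q.Prime] in
theorem res1_zero : res1 (q := q) (0 : Additive (Gamma0 N) →+ A) = 0 := WCS.op_zero _

omit [Fact q.Prime] in
theorem tr1_neg (ψ : Additive (Gamma0 (N * q)) →+ A) : tr1 (-ψ) = -tr1 ψ := WCS.op_neg _ ψ

omit [NeZero (N * q)] [Fact q.Prime] in
theorem wAL_neg (ψ : Additive (Gamma0 (N * q)) →+ A) : wAL d (-ψ) = -wAL d ψ := WCS.op_neg _ ψ

/-- On `ker tr2`, `U_q = - wAL`. -/
theorem heckeU_eq_neg_wAL (hqN : ¬ q ∣ N) (ψ : Additive (Gamma0 (N * q)) →+ A)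
    (h2 : tr2 d ψ = 0) :
    (cosetU (N * q) q (dvd_mul_left q N)).heckeHom ψ = -wAL d ψ := by
  have h := res1_tr2 d hqN ψ
  rw [h2, res1_zero] at h
  exact eq_neg_of_add_eq_zero_left h.symm

/-- On `ker tr1`, `U_q ∘ wAL = - id`. -/
theorem heckeU_wAL_eq_neg (hqN : ¬ q ∣ N) (ψ : Additive (Gamma0 (N * q)) →+ A)
    (h1 : tr1 ψ = 0) :
    (cosetU (N * q) q (dvd_mul_left q N)).heckeHom (wAL d ψ) = -ψ := by
  have h := res1_tr1_wAL d hqN (wAL d ψ)
  rw [wAL_wAL, h1, res1_zero] at h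
  exact eq_neg_of_add_eq_zero_left h.symm

/-- **(3e), part 1.** `U_q` squares to the identity on `ker tr1 ∩ ker tr2`. -/
theorem heckeU_heckeU (hqN : ¬ q ∣ N) (ψ : Additive (Gamma0 (N * q)) →+ A)
    (h1 : tr1 ψ = 0) (h2 : tr2 d ψ = 0) :
    (cosetU (N * q) q (dvd_mul_left q N)).heckeHom
      ((cosetU (N * q) q (dvd_mul_left q N)).heckeHom ψ) = ψ := by
  rw [heckeU_eq_neg_wAL d hqN ψ h2, CosetSystem.heckeHom_neg, heckeU_wAL_eq_neg d hqN ψ h1,
    neg_neg]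

/-- **(3e), part 2.** `U_q` preserves `ker tr1` (on `ker tr1 ∩ ker tr2`). -/
theorem tr1_heckeU (hqN : ¬ q ∣ N) (ψ : Additive (Gamma0 (N * q)) →+ A)
    (h2 : tr2 d ψ = 0) :
    tr1 ((cosetU (N * q) q (dvd_mul_left q N)).heckeHom ψ) = 0 := by
  rw [heckeU_eq_neg_wAL d hqN ψ h2, tr1_neg]
  have : tr1 (wAL d ψ) = 0 := h2
  rw [this, neg_zero]

/-- **(3e), part 3.** `U_q` preserves `ker tr2` (on `ker tr1 ∩ ker tr2`). -/
theorem tr2_heckeU (hqN : ¬ q ∣ N) (ψ : Additive (Gamma0 (N * q)) →+ A)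
    (h1 : tr1 ψ = 0) (h2 : tr2 d ψ = 0) :
    tr2 d ((cosetU (N * q) q (dvd_mul_left q N)).heckeHom ψ) = 0 := by
  rw [heckeU_eq_neg_wAL d hqN ψ h2]
  show tr1 (wAL d (-wAL d ψ)) = 0
  rw [wAL_neg, wAL_wAL, tr1_neg, h1, neg_zero]

end Fermat.Agent.S41.Level.InstUWB
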