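/-
S41 volunteer leaf (P3), instance (I2), second-seat copy (helper77): the Atkin-Lehner involution
`wAL d` on `Hom(Γ₀(N q), A)` commutes with the Hecke operators `T_ℓ`, `ℓ ∤ N q`.

Method (helper59's hint): compare the product systems `{W * alT i}` and `{alT j * W}`; both are
rigid, and `W * B = Y * W` for an explicit integral `Y` with `N q ∣ Y 1 0` when `B` is upper
triangular, so `Y = mat g' * alT j` by `exists_decompT`.
-/
import Mathlib
import Fermat.Agent.S41.Level.Degeneracy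

set_option autoImplicit false

namespace Fermat.Agent.S41.Level.InstWTB

open scoped MatrixGroups
open Matrix CongruenceSubgroup Fermat.Agent.S16.HeckeHom Fermat.Agent.S41.Level

theorem mul_left_cancel_of_det_ne_zero {A B M : Matrix (Fin 2) (Fin 2) ℤ} (hM : M.det ≠ 0)
    (h : M * A = M * B) : A = B := by
  have h1 : M.adjugate * (M * A) = M.adjugate * (M * B) := by rw [h]
  rw [← Matrix.mul_assoc, ← Matrix.mul_assoc, Matrix.adjugate_mul, Matrix.smul_mul,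
    Matrix.smul_mul, Matrix.one_mul, Matrix.one_mul] at h1
  ext i j
  have h2 := congrFun (congrFun h1 i) j
  simp only [Matrix.smul_apply, smul_eq_mul] at h2
  exact mul_left_cancel₀ hM h2

variable {N q : ℕ} (d : ALData N q)

/-- The conjugate of an upper triangular matrix by `W`. -/
def conjUpper (a b e : ℤ) : Matrix (Fin 2) (Fin 2) ℤ :=
  !![(q : ℤ) * d.x * a - (N : ℤ) * d.z * ((q : ℤ) * d.x * b + e),
     d.x * (-a + (q : ℤ) * d.x * b + e);
     (N : ℤ) * q * d.z * (a - (N : ℤ) * d.z * b - e),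
     -(N : ℤ) * d.z * a + (q : ℤ) * d.x * ((N : ℤ) * d.z * b + e)]

theorem W_mul_upper (a b e : ℤ) :
    d.W * !![a, b; 0, e] = conjUpper d a b e * d.W := by
  have hx := d.hxz
  rw [ALData.W, conjUpper]
  ext i j
  fin_cases i <;> fin_cases j
  · simp only [Matrix.mul_apply, Fin.sum_univ_two]
    simp
    linear_combination (-((q : ℤ) * d.x * a)) * hx
  · simp only [Matrix.mul_apply, Fin.sum_univ_two]
    simp
    linear_combination (-((q : ℤ) * d.x * b + e)) * hx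
  · simp only [Matrix.mul_apply, Fin.sum_univ_two]
    simp
    linear_combination (-((N : ℤ) * q * d.z * a)) * hx
  · simp only [Matrix.mul_apply, Fin.sum_univ_two]
    simp
    linear_combination (-((N : ℤ) * q * d.z * b + (q : ℤ) * e)) * hx

theorem dvd_conjUpper (a b e : ℤ) : ((N * q : ℕ) : ℤ) ∣ conjUpper d a b e 1 0 := by
  refine ⟨d.z * (a - (N : ℤ) * d.z * b - e), ?_⟩
  simp only [conjUpper]
  simp
  ring

theorem alT_eq_upper (ℓ : ℕ) (i : Option (Fin ℓ)) :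
    ∃ a b e : ℤ, alT ℓ i = !![a, b; 0, e] := by
  cases i with
  | none => exact ⟨ℓ, 0, 1, rfl⟩
  | some j => exact ⟨1, ((j : ℕ) : ℤ), ℓ, rfl⟩

/-- `W * alT i = mat g' * alT j * W`. -/
theorem exists_W_mul_alT [NeZero (N * q)] (ℓ : ℕ) [hℓ : Fact ℓ.Prime] (hℓM : ¬ ℓ ∣ N * q)
    (i : Option (Fin ℓ)) :
    ∃ (j : Option (Fin ℓ)) (g' : Gamma0 (N * q)), d.W * alT ℓ i = mat g' * (alT ℓ j * d.W) := by
  obtain ⟨a, b, e, hi⟩ := alT_eq_upper ℓ i
  have h1 : d.W * alT ℓ i = conjUpper d a b e * d.W := by rw [hi]; exact W_mul_upper d a b e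
  have hdet : (conjUpper d a b e).det = ℓ := by
    have h2 := congrArg Matrix.det h1
    rw [Matrix.det_mul, Matrix.det_mul, det_alT, mul_comm] at h2
    exact (mul_right_cancel₀ d.det_W_ne h2).symm
  obtain ⟨j, g', hj⟩ := exists_decompT (N * q) ℓ hℓM _ hdet (dvd_conjUpper d a b e)
  exact ⟨j, g', by rw [h1, hj, Matrix.mul_assoc]⟩

variable {A : Type*} [AddCommGroup A]

/-- (I2) The Atkin-Lehner involution commutes with `T_ℓ`, `ℓ ∤ N q`. -/
theorem wAL_heckeT [NeZero (N * q)] (ℓ : ℕ) [hℓ : Fact ℓ.Prime] (hℓM : ¬ ℓ ∣ N * q)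
    (ψ : Additive (Gamma0 (N * q)) →+ A) :
    wAL d ((cosetT (N * q) ℓ hℓM).heckeHom ψ) = (cosetT (N * q) ℓ hℓM).heckeHom (wAL d ψ) := by
  rw [← sysT_op, ← sysT_op, wAL, wAL, ← WCS.op_comp, ← WCS.op_comp]
  symm
  have hℓ0 : (ℓ : ℤ) ≠ 0 := by exact_mod_cast hℓ.out.ne_zero
  refine WCS.op_eq_of_forall_exists _ _ ⟨?_, ?_⟩ ⟨?_, ?_⟩ ?_ ?_ ψ
  · -- determinants of `W * alT i`
    rintro ⟨i, u⟩
    rw [WCS.comp_al]
    show (d.W * alT ℓ i).det ≠ 0
    rw [Matrix.det_mul, det_alT]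
    exact mul_ne_zero d.det_W_ne hℓ0
  · -- rigidity of `W * alT i`
    rintro ⟨i, u⟩ ⟨i', u'⟩ g' h
    rw [WCS.comp_al, WCS.comp_al] at h
    have h' : d.W * alT ℓ i = mat g' * (d.W * alT ℓ i') := h
    obtain ⟨g₀, hg₀⟩ := d.conjW_surjective g'
    have h2 : mat g' * d.W = d.W * mat g₀ := by rw [← hg₀]; exact (d.conjW_spec g₀).symm
    rw [← Matrix.mul_assoc, h2, Matrix.mul_assoc] at h'
    have h3 := mul_left_cancel_of_det_ne_zero d.det_W_ne h'
    have := (cosetT (N * q) ℓ hℓM).uniq i i' g₀ h3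
    rw [this]
  · -- determinants of `alT j * W`
    rintro ⟨u, j⟩
    rw [WCS.comp_al]
    show (alT ℓ j * d.W).det ≠ 0
    rw [Matrix.det_mul, det_alT]
    exact mul_ne_zero hℓ0 d.det_W_ne
  · -- rigidity of `alT j * W`
    rintro ⟨u, j⟩ ⟨u', j'⟩ g' h
    rw [WCS.comp_al, WCS.comp_al] at h
    have h' : alT ℓ j * d.W = mat g' * (alT ℓ j' * d.W) := h
    rw [← Matrix.mul_assoc] at h'
    have h3 := mul_right_cancel_of_det_ne_zero d.det_W_ne h'
    have := (cosetT (N * q) ℓ hℓM).uniq j j' g' h3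
    rw [this]
  · rw [Fintype.card_prod, Fintype.card_prod, mul_comm]
  · rintro ⟨i, u⟩
    obtain ⟨j, g', hj⟩ := exists_W_mul_alT d ℓ hℓM i
    exact ⟨((), j), g', hj⟩

/-- The second restriction map commutes with `T_ℓ`, `ℓ ∤ N q`. -/
theorem res2_heckeT [NeZero (N * q)] (ℓ : ℕ) [Fact ℓ.Prime] (hℓN : ¬ ℓ ∣ N) (hℓM : ¬ ℓ ∣ N * q)
    (φ : Additive (Gamma0 N) →+ A) :
    res2 d ((cosetT N ℓ hℓN).heckeHom φ) = (cosetT (N * q) ℓ hℓM).heckeHom (res2 d φ) := by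
  rw [res2, res2, res1_heckeT ℓ hℓN hℓM, wAL_heckeT]

/-- The second transfer map commutes with `T_ℓ`, `ℓ ∤ N q`, as soon as the first one does
(instance (I3)). -/
theorem tr2_heckeT_of [NeZero (N * q)] (ℓ : ℕ) [Fact ℓ.Prime] (hℓN : ¬ ℓ ∣ N) (hℓM : ¬ ℓ ∣ N * q)
    (htr1 : ∀ ψ : Additive (Gamma0 (N * q)) →+ A,
      tr1 ((cosetT (N * q) ℓ hℓM).heckeHom ψ) = (cosetT N ℓ hℓN).heckeHom (tr1 ψ))
    (ψ : Additive (Gamma0 (N * q)) →+ A) :
    tr2 d ((cosetT (N * q) ℓ hℓM).heckeHom ψ) = (cosetT N ℓ hℓN).heckeHom (tr2 d ψ) := by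
  rw [tr2, tr2, wAL_heckeT, htr1]

end Fermat.Agent.S41.Level.InstWTB
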