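/-
S41 volunteer leaf (P3), instance (3b) (helper19): the restriction / transfer maps between the levels
`N` and `N q'` commute with the Hecke operators `T_ℓ` (`ℓ ∤ N q'`) and `U_r` (`r ∣ N`).

Framework: `Level/CosetSys.lean` (helper59, weak coset systems `WCS`).

ABSTRACT PART (any subgroups `G' ≤ G` of `SL(2, ℤ)`, `H : WCS G G J`, `H' : WCS G' G' J` two Hecke
systems with the same family `a_j` of representatives):

* `incl_comm`   : restriction commutes with the Hecke operators;
* `single_comm` : restriction after conjugation by a matrix `B` commutes with the Hecke operators, as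
                  soon as `B a_j = h_j a_{σ j} B` with `h_j ∈ G`;
* `tr_comm`     : a transfer system `Tr : WCS G G' K` with representatives `r_k ∈ G` commutes with
                  the Hecke operators, as soon as `a_j γ = g' a_j'` (`γ ∈ G`, `g' ∈ G'`) forces
                  `γ ∈ G'`;
* `tr_comm_of_rigid` : the general form (any transfer-type system `Tr`), from the rigidity of the two
                  composite families and one decomposition statement.
-/
import Mathlib
import Fermat.Agent.S16.HeckeHom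
import Fermat.Agent.S41.Level.CosetSys

set_option autoImplicit false

namespace Fermat.Agent.S41.Level.Inst3b

open scoped MatrixGroups
open Matrix Fermat.Agent.S16.HeckeHom Fermat.Agent.S41.Level

/-! ### Abstract part -/

section Abstract

variable {G G' : Subgroup SL(2, ℤ)} {J K : Type}

/-- cancellation of a matrix with nonzero determinant on the right. -/
theorem mul_right_cancel_det {X Y B : Matrix (Fin 2) (Fin 2) ℤ} (hB : B.det ≠ 0)
    (h : X * B = Y * B) : X = Y :=
  mul_right_cancel_of_det_ne_zero hB h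

/-- **Restriction commutes with the Hecke operators.** -/
theorem incl_comm [Fintype J] (hle : G' ≤ G) (H : WCS G G J) (H' : WCS G' G' J) (hH : H.Rigid)
    (hal : ∀ j, H'.al j = H.al j) {A : Type*} [AddCommGroup A] (φ : Additive G →+ A) :
    (WCS.incl hle).op (H.op φ) = H'.op ((WCS.incl hle).op φ) := by
  rw [← WCS.op_comp, ← WCS.op_comp]
  symm
  refine WCS.op_eq_of_equiv (H'.comp (WCS.incl hle)) ((WCS.incl hle).comp H) ⟨?_, ?_⟩
    (Equiv.prodComm J Unit) (fun _ => 1) ?_ φ
  · rintro ⟨u, j⟩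
    show (H.al j * (1 : Matrix (Fin 2) (Fin 2) ℤ)).det ≠ 0
    rw [Matrix.mul_one]
    exact hH.det_ne j
  · rintro ⟨u, j⟩ ⟨u', j'⟩ g h
    have h' : H.al j * (1 : Matrix (Fin 2) (Fin 2) ℤ) =
        mat g * (H.al j' * (1 : Matrix (Fin 2) (Fin 2) ℤ)) := h
    rw [Matrix.mul_one, Matrix.mul_one] at h'
    rw [hH.uniq j j' g h']
  · rintro ⟨j, u⟩
    show (1 : Matrix (Fin 2) (Fin 2) ℤ) * H'.al j =
      mat (1 : G) * (H.al j * (1 : Matrix (Fin 2) (Fin 2) ℤ))
    rw [mat_one, Matrix.one_mul, Matrix.one_mul, Matrix.mul_one, hal]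

/-- **Restriction after conjugation commutes with the Hecke operators**: `R : WCS G' G Unit` a
one-element system with matrix `B` (`B g' = f(g') B`), and `B a_j = h_j a_{σ j} B`. -/
theorem single_comm [Fintype J] (R : WCS G' G Unit) (hB : (R.al ()).det ≠ 0)
    (H : WCS G G J) (H' : WCS G' G' J) (hH : H.Rigid) (hal : ∀ j, H'.al j = H.al j)
    (σ : J ≃ J) (h : J → G)
    (hBa : ∀ j, R.al () * H.al j = mat (h j) * (H.al (σ j) * R.al ()))
    {A : Type*} [AddCommGroup A] (φ : Additive G →+ A) :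
    R.op (H.op φ) = H'.op (R.op φ) := by
  rw [← WCS.op_comp, ← WCS.op_comp]
  symm
  refine WCS.op_eq_of_equiv (H'.comp R) (R.comp H) ⟨?_, ?_⟩
    ((Equiv.prodComm J Unit).trans (Equiv.prodCongr (Equiv.refl Unit) σ)) (fun x => h x.1) ?_ φ
  · rintro ⟨u, j⟩
    show (H.al j * R.al u).det ≠ 0
    rw [Matrix.det_mul]
    exact mul_ne_zero (hH.det_ne j) hB
  · rintro ⟨u, j⟩ ⟨u', j'⟩ g hh
    have h' : H.al j * R.al () = mat g * (H.al j' * R.al ()) := hh
    rw [← Matrix.mul_assoc] at h'
    rw [hH.uniq j j' g (mul_right_cancel_det hB h')]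
  · rintro ⟨j, u⟩
    show R.al () * H'.al j = mat (h j) * (H.al (σ j) * R.al ())
    rw [hal, hBa]

/-- **Transfer-type systems commute with the Hecke operators, general form.** -/
theorem tr_comm_of_rigid [Fintype J] [Fintype K] (Tr : WCS G G' K)
    (H : WCS G G J) (H' : WCS G' G' J)
    (hC : (Tr.comp H').Rigid) (hD : (H.comp Tr).Rigid)
    (hex : ∀ (k : K) (j : J), ∃ (j' : J) (k' : K) (g' : G'),
      H'.al j * Tr.al k = mat g' * (Tr.al k' * H.al j'))
    {A : Type*} [AddCommGroup A] (φ : Additive G' →+ A) :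
    Tr.op (H'.op φ) = H.op (Tr.op φ) := by
  rw [← WCS.op_comp, ← WCS.op_comp]
  refine WCS.op_eq_of_forall_exists (Tr.comp H') (H.comp Tr) hC hD ?_ ?_ φ
  · rw [Fintype.card_prod, Fintype.card_prod, mul_comm]
  · rintro ⟨k, j⟩
    obtain ⟨j', k', g', hg⟩ := hex k j
    exact ⟨(j', k'), g', hg⟩

/-- **Transfer commutes with the Hecke operators**: `Tr : WCS G G' K` with representatives
`r k ∈ G` covering `G' \ G`. -/
theorem tr_comm [Fintype J] [Fintype K] (Tr : WCS G G' K) (hTr : Tr.Rigid) (r : K → G)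
    (hr : ∀ k, Tr.al k = mat (r k))
    (hcov : ∀ g : G, ∃ (k : K) (g' : G'), mat g = mat g' * Tr.al k)
    (hle : G' ≤ G)
    (H : WCS G G J) (H' : WCS G' G' J) (hH : H.Rigid) (hH' : H'.Rigid)
    (hal : ∀ j, H'.al j = H.al j)
    (hstab : ∀ (j j' : J) (γ : G) (g' : G'), H.al j * mat γ = mat g' * H.al j' →
      (γ : SL(2, ℤ)) ∈ G')
    {A : Type*} [AddCommGroup A] (φ : Additive G' →+ A) :
    Tr.op (H'.op φ) = H.op (Tr.op φ) := by
  refine tr_comm_of_rigid Tr H H' ⟨?_, ?_⟩ ⟨?_, ?_⟩ ?_ φ
  · -- determinants of `a_j r_k`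
    rintro ⟨k, j⟩
    show (H'.al j * Tr.al k).det ≠ 0
    rw [Matrix.det_mul, hr, mat_det, mul_one, hal]
    exact hH.det_ne j
  · -- rigidity of `a_j r_k`
    rintro ⟨k, j⟩ ⟨k', j'⟩ g' hh
    have h1 : H.al j * mat (r k) = mat g' * (H.al j' * mat (r k')) := by
      have : H'.al j * Tr.al k = mat g' * (H'.al j' * Tr.al k') := hh
      rwa [hal, hal, hr, hr] at this
    -- `a_j (r_k r_k'⁻¹) = g' a_j'`
    have h2 : H.al j * mat (r k * (r k')⁻¹) = mat g' * H.al j' := by
      rw [mat_mul, ← Matrix.mul_assoc, h1, Matrix.mul_assoc, Matrix.mul_assoc, mat_mul_inv,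
        Matrix.mul_one]
    have hγ : ((r k * (r k')⁻¹ : G) : SL(2, ℤ)) ∈ G' := hstab j j' _ g' h2
    -- hence `k = k'`
    have h3 : Tr.al k = mat (⟨_, hγ⟩ : G') * Tr.al k' := by
      rw [hr, hr]
      have : mat (⟨_, hγ⟩ : G') = mat (r k * (r k')⁻¹) := rfl
      rw [this, mat_mul, Matrix.mul_assoc, mat_inv_mul, Matrix.mul_one]
    have hk : k = k' := hTr.uniq k k' _ h3
    subst hk
    -- and then `j = j'`
    have h4 : H'.al j = mat g' * H'.al j' := by
      have h5 : (H.al j) * mat (r k) = (mat g' * H.al j') * mat (r k) := by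
        rw [h1, Matrix.mul_assoc]
      have hdet : (mat (r k)).det ≠ 0 := by rw [mat_det]; exact one_ne_zero
      rw [hal, hal]
      exact mul_right_cancel_det hdet h5
    rw [hH'.uniq j j' g' h4]
  · -- determinants of `r_k a_j`
    rintro ⟨j, k⟩
    show (Tr.al k * H.al j).det ≠ 0
    rw [Matrix.det_mul, hr, mat_det, one_mul]
    exact hH.det_ne j
  · -- rigidity of `r_k a_j`
    rintro ⟨j, k⟩ ⟨j', k'⟩ g' hh
    have h1 : mat (r k) * H.al j = mat g' * (mat (r k') * H.al j') := by
      have : Tr.al k * H.al j = mat g' * (Tr.al k' * H.al j') := hh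
      rwa [hr, hr] at this
    have h2 : H.al j = mat ((r k)⁻¹ * Subgroup.inclusion hle g' * r k') * H.al j' := by
      have e : mat (Subgroup.inclusion hle g') = mat g' := rfl
      calc H.al j = mat (r k)⁻¹ * (mat (r k) * H.al j) := by
            rw [← Matrix.mul_assoc, mat_inv_mul, Matrix.one_mul]
        _ = mat (r k)⁻¹ * (mat g' * (mat (r k') * H.al j')) := by rw [h1]
        _ = mat ((r k)⁻¹ * Subgroup.inclusion hle g' * r k') * H.al j' := by
            rw [mat_mul, mat_mul, e]
            simp only [Matrix.mul_assoc]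
    have hj : j = j' := hH.uniq j j' _ h2
    subst hj
    have h3 : Tr.al k = mat g' * Tr.al k' := by
      rw [hr, hr]
      have h5 : mat (r k) * H.al j = (mat g' * mat (r k')) * H.al j := by
        rw [h1, Matrix.mul_assoc]
      exact mul_right_cancel_det (hH.det_ne j) h5
    rw [hTr.uniq k k' g' h3]
  · -- existence
    intro k j
    obtain ⟨k', g', hg⟩ := hcov (H.fac (r k) j)
    refine ⟨H.perm (r k) j, k', g', ?_⟩
    rw [hal, hr, H.spec, hg, Matrix.mul_assoc]

end Abstract

end Fermat.Agent.S41.Level.Inst3b
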