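/-
S41 volunteer leaf (P3), instance (I3), second-seat copy (helper77): the transfer
`tr1 : Hom(Γ₀(N q), A) → Hom(Γ₀(N), A)` commutes with the Hecke operators `T_ℓ`, `ℓ ∤ N q`.

Instance of helper19's abstract `Inst3b.tr_comm`: the only arithmetic input is that
`alT j * γ = g' * alT j'` with `γ ∈ Γ₀(N)`, `g' ∈ Γ₀(N q)` forces `γ ∈ Γ₀(N q)` (compare the lower
left entries: `d_j c = g'₁₀ a_j'` with `d_j, a_j' ∈ {1, ℓ}` prime to `q`).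
-/
import Mathlib
import Fermat.Agent.S41.Level.Degeneracy
import Fermat.Agent.S41.Level.Inst3b
import Fermat.Agent.S41.Level.InstWTB

set_option autoImplicit false

namespace Fermat.Agent.S41.Level.InstTrTB

open scoped MatrixGroups
open Matrix CongruenceSubgroup Fermat.Agent.S16.HeckeHom Fermat.Agent.S41.Level

/-- lower left entry of `alT i * X`. -/
theorem alT_mul_apply_one_zero (ℓ : ℕ) (i : Option (Fin ℓ)) (X : Matrix (Fin 2) (Fin 2) ℤ) :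
    (alT ℓ i * X) 1 0 = alT ℓ i 1 1 * X 1 0 := by
  cases i <;> simp [alT, Matrix.mul_apply, Fin.sum_univ_two]

/-- lower left entry of `X * alT i`. -/
theorem mul_alT_apply_one_zero (ℓ : ℕ) (i : Option (Fin ℓ)) (X : Matrix (Fin 2) (Fin 2) ℤ) :
    (X * alT ℓ i) 1 0 = X 1 0 * alT ℓ i 0 0 := by
  cases i <;> simp [alT, Matrix.mul_apply, Fin.sum_univ_two]

theorem alT_apply_one_one (ℓ : ℕ) (i : Option (Fin ℓ)) :
    alT ℓ i 1 1 = 1 ∨ alT ℓ i 1 1 = ℓ := by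
  cases i <;> simp [alT]

variable {N q : ℕ}

/-- The stabiliser condition for `T_ℓ`. -/
theorem mem_gamma0_mul_of_alT [hq : Fact q.Prime] (hqN : ¬ q ∣ N) (ℓ : ℕ) [hℓ : Fact ℓ.Prime]
    (hℓM : ¬ ℓ ∣ N * q) (j j' : Option (Fin ℓ)) (γ : Gamma0 N) (g' : Gamma0 (N * q))
    (h : alT ℓ j * mat γ = mat g' * alT ℓ j') : (γ : SL(2, ℤ)) ∈ Gamma0 (N * q) := by
  have h1 := congrFun (congrFun h 1) 0
  rw [alT_mul_apply_one_zero, mul_alT_apply_one_zero] at h1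
  have hg' : ((N * q : ℕ) : ℤ) ∣ mat g' 1 0 := dvd_mat_one_zero (N * q) g'
  have hγ : (N : ℤ) ∣ mat γ 1 0 := dvd_mat_one_zero N γ
  have hqdvd : (q : ℤ) ∣ alT ℓ j 1 1 * mat γ 1 0 := by
    rw [h1]
    exact Dvd.dvd.mul_right (dvd_trans ⟨(N : ℤ), by push_cast; ring⟩ hg') _
  have hqℓ : q ≠ ℓ := by
    rintro rfl
    exact hℓM (dvd_mul_left _ _)
  have hcop : IsCoprime (q : ℤ) (alT ℓ j 1 1) := by
    rcases alT_apply_one_one ℓ j with h2 | h2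
    · rw [h2]; exact isCoprime_one_right
    · rw [h2]
      exact Nat.isCoprime_iff_coprime.mpr ((Nat.coprime_primes hq.out hℓ.out).mpr hqℓ)
  have hqc : (q : ℤ) ∣ mat γ 1 0 := hcop.dvd_of_dvd_mul_left hqdvd
  have hNq : IsCoprime (N : ℤ) (q : ℤ) :=
    Nat.isCoprime_iff_coprime.mpr
      (Nat.Coprime.symm ((Nat.Prime.coprime_iff_not_dvd hq.out).mpr hqN))
  have hdvd : ((N * q : ℕ) : ℤ) ∣ mat γ 1 0 := by
    push_cast
    exact hNq.mul_dvd hγ hqc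
  rw [Gamma0_mem, ZMod.intCast_zmod_eq_zero_iff_dvd]
  exact hdvd

variable {A : Type*} [AddCommGroup A]

/-- (I3) The transfer commutes with `T_ℓ`, `ℓ ∤ N q`. -/
theorem tr1_heckeT [NeZero (N * q)] [Fact q.Prime] (hqN : ¬ q ∣ N) (ℓ : ℕ) [Fact ℓ.Prime]
    (hℓN : ¬ ℓ ∣ N) (hℓM : ¬ ℓ ∣ N * q) (ψ : Additive (Gamma0 (N * q)) →+ A) :
    tr1 ((cosetT (N * q) ℓ hℓM).heckeHom ψ) = (cosetT N ℓ hℓN).heckeHom (tr1 ψ) := by
  rw [← sysT_op, ← sysT_op, tr1, tr1]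
  exact Inst3b.tr_comm (trSys N q) (transferSys_rigid _)
    (fun k => ((Quotient.out k : Gamma0 N)⁻¹)) (fun k => rfl)
    (exists_transfer_decomp (gamma0_mul_le N q)) (gamma0_mul_le N q)
    (sysT N ℓ hℓN) (sysT (N * q) ℓ hℓM) (sysT_rigid N ℓ hℓN) (sysT_rigid (N * q) ℓ hℓM)
    (fun j => rfl)
    (fun j j' γ g' h => mem_gamma0_mul_of_alT hqN ℓ hℓM j j' γ g' h) ψ

/-- The second transfer commutes with `T_ℓ`, `ℓ ∤ N q`. -/
theorem tr2_heckeT (d : ALData N q) [NeZero (N * q)] [Fact q.Prime] (hqN : ¬ q ∣ N) (ℓ : ℕ)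
    [Fact ℓ.Prime] (hℓN : ¬ ℓ ∣ N) (hℓM : ¬ ℓ ∣ N * q) (ψ : Additive (Gamma0 (N * q)) →+ A) :
    tr2 d ((cosetT (N * q) ℓ hℓM).heckeHom ψ) = (cosetT N ℓ hℓN).heckeHom (tr2 d ψ) :=
  InstWTB.tr2_heckeT_of d ℓ hℓN hℓM (tr1_heckeT hqN ℓ hℓN hℓM) ψ

end Fermat.Agent.S41.Level.InstTrTB
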