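/-
S41 volunteer leaf (P3), transfer (helper59).

For subgroups `G' ≤ G` of `SL(2, ℤ)` with `G'` of finite index in `G`, the transfer
`Hom(G', A) → Hom(G, A)` as the operator of a weak coset system (representatives: inverses of
`Quotient.out` on left cosets).  Any other rigid family of representatives gives the same operator
(`WCS.op_eq_of_forall_exists`).
-/
import Mathlib
import Fermat.Agent.S41.Level.CosetSys

set_option autoImplicit false

namespace Fermat.Agent.S41.Level

open scoped MatrixGroups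
open Matrix Fermat.Agent.S16.HeckeHom

variable {G G' : Subgroup SL(2, ℤ)}

theorem mat_eq_iff {H H' : Subgroup SL(2, ℤ)} (a : H) (b : H') :
    mat a = mat b ↔ (a : SL(2, ℤ)) = (b : SL(2, ℤ)) :=
  ⟨fun h => Subtype.ext h, fun h => by rw [mat, mat, h]⟩

/-- The unique-decomposition datum of the transfer from `G'` to `G`. -/
noncomputable def transferData (_hle : G' ≤ G) : UData G G' (G ⧸ G'.subgroupOf G) where
  al k := mat ((Quotient.out k : G)⁻¹)
  det_ne k := by rw [mat_det]; exact one_ne_zero
  ex g k := by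
    obtain ⟨h, hh⟩ := QuotientGroup.mk_out_eq_mul (G'.subgroupOf G) (g⁻¹ * Quotient.out k)
    refine ⟨QuotientGroup.mk (g⁻¹ * Quotient.out k),
      ⟨((h : G) : SL(2, ℤ)), Subgroup.mem_subgroupOf.mp h.2⟩, ?_⟩
    rw [hh, ← mat_mul]
    have h1 : mat (⟨((h : G) : SL(2, ℤ)), Subgroup.mem_subgroupOf.mp h.2⟩ : G') = mat (h : G) :=
      rfl
    rw [h1, ← mat_mul]
    congr 1
    group
  uniq k k' g' hk := by
    have h1 : ((Quotient.out k : G)⁻¹ : G) =
        (⟨(g' : SL(2, ℤ)), _hle g'.2⟩ : G) * (Quotient.out k' : G)⁻¹ := by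
      apply mat_injective
      rw [mat_mul]
      exact hk
    have h2 : (Quotient.out k : G)⁻¹ * Quotient.out k' ∈ G'.subgroupOf G := by
      rw [h1, mul_assoc, inv_mul_cancel, mul_one, Subgroup.mem_subgroupOf]
      exact g'.2
    have h3 : (QuotientGroup.mk (Quotient.out k) : G ⧸ G'.subgroupOf G) =
        QuotientGroup.mk (Quotient.out k') := QuotientGroup.eq.mpr h2
    rwa [QuotientGroup.out_eq', QuotientGroup.out_eq'] at h3

/-- The transfer system. -/
noncomputable def transferSys (hle : G' ≤ G) : WCS G G' (G ⧸ G'.subgroupOf G) :=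
  (transferData hle).toWCS

theorem transferSys_rigid (hle : G' ≤ G) : (transferSys hle).Rigid := (transferData hle).rigid

theorem transferSys_al (hle : G' ≤ G) (k : G ⧸ G'.subgroupOf G) :
    (transferSys hle).al k = mat ((Quotient.out k : G)⁻¹) := rfl

/-- Every element of `G` is a `G'`-multiple of a transfer representative. -/
theorem exists_transfer_decomp (hle : G' ≤ G) (g : G) :
    ∃ (k : G ⧸ G'.subgroupOf G) (g' : G'), mat g = mat g' * (transferSys hle).al k := by
  obtain ⟨h, hh⟩ := QuotientGroup.mk_out_eq_mul (G'.subgroupOf G) g⁻¹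
  refine ⟨QuotientGroup.mk g⁻¹, ⟨((h : G) : SL(2, ℤ)), Subgroup.mem_subgroupOf.mp h.2⟩, ?_⟩
  rw [transferSys_al, hh]
  have h1 : mat (⟨((h : G) : SL(2, ℤ)), Subgroup.mem_subgroupOf.mp h.2⟩ : G') = mat (h : G) :=
    rfl
  rw [h1, ← mat_mul]
  congr 1
  group

end Fermat.Agent.S41.Level
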